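import Mathlib

/-!
# S05: abstract `(X, Y)`-models of `Y ^ 2 = X (X + D) (X + M)`

The whole valuation-theoretic part of S05 is done for an abstract additive group `G` whose nonzero
elements carry coordinates `(X, Y)` satisfying the chord-tangent formulas.
-/

set_option autoImplicit false

namespace Fermat.Agent.S05Aux

/-- An additive commutative group `G` whose nonzero elements have coordinates `(X, Y)` on
`Y ^ 2 = X (X + D) (X + M)`, with the usual formulas for `X (P - Q)` and `X (2 P)`.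
The values of `X` and `Y` at `0` are junk. -/
structure XYModel (K : Type*) [Field K] (G : Type*) [AddCommGroup G] (D M : K) where
  X : G → K
  Y : G → K
  eqn : ∀ P : G, P ≠ 0 → Y P ^ 2 = X P * (X P + D) * (X P + M)
  X_neg : ∀ P : G, X (-P) = X P
  Y_neg : ∀ P : G, Y (-P) = -Y P
  ext : ∀ P Q : G, P ≠ 0 → Q ≠ 0 → X P = X Q → Y P = Y Q → P = Q
  X_sub : ∀ P Q : G, P ≠ 0 → Q ≠ 0 → X P ≠ X Q →
    X (P - Q) * (X P - X Q) ^ 2 = (Y P + Y Q) ^ 2 - (D + M + X P + X Q) * (X P - X Q) ^ 2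
  X_two : ∀ P : G, P ≠ 0 → Y P ≠ 0 →
    X (2 • P) * (4 * Y P ^ 2) = (X P ^ 2 - D * M) ^ 2

namespace XYModel

variable {K : Type*} [Field K] {G : Type*} [AddCommGroup G] {D M : K} (E : XYModel K G D M)
include E

/-- (F0) -/
lemma eq_or_eq_neg {P Q : G} (hP : P ≠ 0) (hQ : Q ≠ 0) (h : E.X P = E.X Q) : P = Q ∨ P = -Q := by
  have h1 : E.Y P ^ 2 = E.Y Q ^ 2 := by rw [E.eqn P hP, E.eqn Q hQ, h]
  rcases sq_eq_sq_iff_eq_or_eq_neg.1 h1 with h2 | h2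
  · exact Or.inl (E.ext P Q hP hQ h h2)
  · refine Or.inr (E.ext P (-Q) hP (neg_ne_zero.2 hQ) ?_ ?_)
    · rw [E.X_neg, h]
    · rw [E.Y_neg, h2]

lemma X_ne_of_ne {P Q : G} (hP : P ≠ 0) (hQ : Q ≠ 0) (h1 : P ≠ Q) (h2 : P ≠ -Q) :
    E.X P ≠ E.X Q := fun h => (E.eq_or_eq_neg hP hQ h).elim h1 h2

lemma X_add {P Q : G} (hP : P ≠ 0) (hQ : Q ≠ 0) (h : E.X P ≠ E.X Q) :
    E.X (P + Q) * (E.X P - E.X Q) ^ 2 =
      (E.Y P - E.Y Q) ^ 2 - (D + M + E.X P + E.X Q) * (E.X P - E.X Q) ^ 2 := by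
  have := E.X_sub P (-Q) hP (neg_ne_zero.2 hQ) (by rwa [E.X_neg])
  rw [E.X_neg, E.Y_neg, sub_neg_eq_add] at this
  rw [this]; ring

/-- (F4) -/
lemma X_add_add_X_sub {P Q : G} (hP : P ≠ 0) (hQ : Q ≠ 0) (h : E.X P ≠ E.X Q) :
    (E.X (P + Q) + E.X (P - Q)) * (E.X P - E.X Q) ^ 2 =
      2 * ((E.X P + E.X Q) * (E.X P * E.X Q + D * M) + 2 * (D + M) * (E.X P * E.X Q)) := by
  have h1 := E.X_add hP hQ h
  have h2 := E.X_sub P Q hP hQ h
  have h3 := E.eqn P hP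
  have h4 := E.eqn Q hQ
  linear_combination h1 + h2 + 2 * h3 + 2 * h4

/-- (F3) -/
lemma X_add_mul_X_sub {P Q : G} (hP : P ≠ 0) (hQ : Q ≠ 0) (h : E.X P ≠ E.X Q) :
    E.X (P + Q) * E.X (P - Q) * (E.X P - E.X Q) ^ 2 = (E.X P * E.X Q - D * M) ^ 2 := by
  have h1 := E.X_add hP hQ h
  have h2 := E.X_sub P Q hP hQ h
  have h3 := E.eqn P hP
  have h4 := E.eqn Q hQ
  have hu : (E.X P - E.X Q) ^ 2 ≠ 0 := pow_ne_zero 2 (sub_ne_zero.2 h)
  apply mul_right_cancel₀ hu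
  linear_combination (E.X (P - Q) * (E.X P - E.X Q) ^ 2) * h1
    + ((E.Y P - E.Y Q) ^ 2 - (D + M + E.X P + E.X Q) * (E.X P - E.X Q) ^ 2) * h2
    + (E.Y P ^ 2 + E.X P * (E.X P + D) * (E.X P + M) - 2 * E.Y Q ^ 2
        - 2 * (D + M + E.X P + E.X Q) * (E.X P - E.X Q) ^ 2) * h3
    + (E.Y Q ^ 2 + E.X Q * (E.X Q + D) * (E.X Q + M) - 2 * (E.X P * (E.X P + D) * (E.X P + M))
        - 2 * (D + M + E.X P + E.X Q) * (E.X P - E.X Q) ^ 2) * h4

lemma two_nsmul_eq_zero_of_Y {P : G} (hP : P ≠ 0) (h : E.Y P = 0) : 2 • P = 0 := by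
  have : P = -P := E.ext P (-P) hP (neg_ne_zero.2 hP) (E.X_neg P).symm (by rw [E.Y_neg, h, neg_zero])
  rw [two_nsmul]
  nth_rewrite 1 [this]
  exact neg_add_cancel P

lemma Y_eq_zero_of_two_nsmul (h2 : (2 : K) ≠ 0) {P : G} (h : 2 • P = 0) : E.Y P = 0 := by
  have h1 : P = -P := by rw [two_nsmul] at h; exact eq_neg_of_add_eq_zero_left h
  have h3 : E.Y P = -E.Y P := by
    conv_lhs => rw [h1]
    exact E.Y_neg P
  have h4 : 2 * E.Y P = 0 := by linear_combination h3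
  exact (mul_eq_zero.1 h4).resolve_left h2

end XYModel

/-- Standing hypotheses on the valuation `v` (think: `v` extends the `q`-adic valuation, `q` odd,
`q ≠ p`), the constants `D`, `M` of the model and the (odd) torsion exponent `p`. -/
structure ValHyp {K : Type*} [Field K] {Γ₀ : Type*} [LinearOrderedCommGroupWithZero Γ₀]
    (v : Valuation K Γ₀) (D M : K) (p : ℕ) : Prop where
  two : v 2 = 1
  vM : v M = 1
  vD : v D ≤ 1
  vDM : v (D - M) = 1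
  vp : v (p : K) = 1
  odd : Odd p

end Fermat.Agent.S05Aux
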