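import Mathlib
import Fermat.Agent.S05.Model

/-!
# S05: (G1) no torsion in the kernel of reduction, (G2) `|Y| = 1`
-/

set_option autoImplicit false
set_option linter.unusedSectionVars false

namespace Fermat.Agent.S05Aux

section val
variable {K : Type*} [Field K] {Γ₀ : Type*} [LinearOrderedCommGroupWithZero Γ₀]
  (v : Valuation K Γ₀)

lemma sm_mul_in {a b : K} (ha : v a < 1) (hb : v b ≤ 1) : v (a * b) < 1 := by
  rw [map_mul]
  calc v a * v b ≤ v a * 1 := mul_le_mul_right hb _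
    _ = v a := mul_one _
    _ < 1 := ha

lemma in_mul_sm {a b : K} (ha : v a ≤ 1) (hb : v b < 1) : v (a * b) < 1 := by
  rw [mul_comm]; exact sm_mul_in v hb ha

lemma in_mul_in {a b : K} (ha : v a ≤ 1) (hb : v b ≤ 1) : v (a * b) ≤ 1 := by
  rw [map_mul]; exact mul_le_one' ha hb

lemma in_add_in {a b : K} (ha : v a ≤ 1) (hb : v b ≤ 1) : v (a + b) ≤ 1 :=
  v.map_add_le ha hb

lemma in_sub_in {a b : K} (ha : v a ≤ 1) (hb : v b ≤ 1) : v (a - b) ≤ 1 :=
  v.map_sub_le ha hb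

lemma sm_add_sm {a b : K} (ha : v a < 1) (hb : v b < 1) : v (a + b) < 1 :=
  v.map_add_lt ha hb

lemma sm_sub_sm {a b : K} (ha : v a < 1) (hb : v b < 1) : v (a - b) < 1 :=
  v.map_sub_lt ha hb

lemma in_pow {a : K} (ha : v a ≤ 1) (n : ℕ) : v (a ^ n) ≤ 1 := by
  rw [map_pow]; exact pow_le_one' ha n

lemma in_natCast (n : ℕ) : v (n : K) ≤ 1 := by
  induction n with
  | zero => simp
  | succ n ih => rw [Nat.cast_succ]; exact in_add_in v ih (by simp)

lemma in_ofNat (n : ℕ) [n.AtLeastTwo] : v (OfNat.ofNat n : K) ≤ 1 := by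
  have := in_natCast v (OfNat.ofNat n)
  rwa [Nat.cast_ofNat] at this

lemma val_one_sub_of_sm {e : K} (he : v e < 1) : v (1 - e) = 1 :=
  v.map_one_sub_of_lt he

/-- if `c * u = s` with `u` a unit and `s` small then `c` is small. -/
lemma sm_of_mul_unit {c u s : K} (h : c * u = s) (hu : v u = 1) (hs : v s < 1) : v c < 1 := by
  have : v c * v u = v s := by rw [← map_mul, h]
  rw [hu, mul_one] at this
  rwa [this]

lemma val_inv_lt_one {x : K} (hx : 1 < v x) : v x⁻¹ < 1 := by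
  rw [map_inv₀]
  exact inv_lt_one_of_one_lt₀ hx

lemma ne_zero_of_one_lt {x : K} (hx : 1 < v x) : x ≠ 0 := by
  rintro rfl
  simp at hx

end val

namespace XYModel

variable {K : Type*} [Field K] {G : Type*} [AddCommGroup G] {D M : K} (E : XYModel K G D M)
  {Γ₀ : Type*} [LinearOrderedCommGroupWithZero Γ₀] (v : Valuation K Γ₀)

open Classical in
/-- `ξ_Q = X(P) / X(Q)`, and `0` if `Q = 0`. -/
noncomputable def xi (P Q : G) : K := if Q = 0 then 0 else E.X P / E.X Q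

lemma xi_zero (P : G) : E.xi P 0 = 0 := if_pos rfl

lemma xi_of_ne {P Q : G} (hQ : Q ≠ 0) : E.xi P Q = E.X P / E.X Q := if_neg hQ

lemma xi_neg (P Q : G) : E.xi P (-Q) = E.xi P Q := by
  by_cases hQ : Q = 0
  · rw [hQ, neg_zero]
  · rw [E.xi_of_ne hQ, E.xi_of_ne (neg_ne_zero.2 hQ), E.X_neg]

section kernel
variable (hD : v D ≤ 1) (hM : v M ≤ 1) (h2 : (2 : K) ≠ 0) {P : G} (hP : P ≠ 0)
  (hX : 1 < v (E.X P))
include hD hM h2 hP hX

lemma dbl_kernel : 2 • P ≠ 0 ∧ E.X (2 • P) ≠ 0 ∧ v (E.xi P (2 • P) - 4) < 1 := by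
  set x := E.X P with hx
  have hx0 : x ≠ 0 := ne_zero_of_one_lt v hX
  set u := x⁻¹ with hu
  have hus : v u < 1 := val_inv_lt_one v hX
  have hui : v u ≤ 1 := hus.le
  have hDM : v (D * M) ≤ 1 := in_mul_in v hD hM
  have he : v (D * M * u ^ 2) < 1 := by
    rw [pow_two, ← mul_assoc]; exact in_mul_sm v (in_mul_in v hDM hui) hus
  have h1e : v (1 - D * M * u ^ 2) = 1 := val_one_sub_of_sm v he
  have hxD : v (1 + D * u) = 1 := v.map_one_add_of_lt (in_mul_sm v hD hus)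
  have hxM : v (1 + M * u) = 1 := v.map_one_add_of_lt (in_mul_sm v hM hus)
  have hxD0 : x + D ≠ 0 := by
    have : x + D = x * (1 + D * u) := by rw [hu]; field_simp
    rw [this]
    exact mul_ne_zero hx0 (fun h => by rw [h] at hxD; simp at hxD)
  have hxM0 : x + M ≠ 0 := by
    have : x + M = x * (1 + M * u) := by rw [hu]; field_simp
    rw [this]
    exact mul_ne_zero hx0 (fun h => by rw [h] at hxM; simp at hxM)
  have hY : E.Y P ≠ 0 := by
    intro h
    have := E.eqn P hP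
    rw [h] at this
    have h3 : x * (x + D) * (x + M) ≠ 0 := mul_ne_zero (mul_ne_zero hx0 hxD0) hxM0
    exact h3 (by rw [← this]; ring)
  have h2P : 2 • P ≠ 0 := fun h => hY (E.Y_eq_zero_of_two_nsmul h2 h)
  have hdbl := E.X_two P hP hY
  have ha0 : x ^ 2 - D * M ≠ 0 := by
    have : x ^ 2 - D * M = x ^ 2 * (1 - D * M * u ^ 2) := by rw [hu]; field_simp
    rw [this]
    exact mul_ne_zero (pow_ne_zero 2 hx0) (fun h => by rw [h] at h1e; simp at h1e)
  have hX2 : E.X (2 • P) ≠ 0 := by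
    intro h
    rw [h, zero_mul] at hdbl
    exact pow_ne_zero 2 ha0 hdbl.symm
  refine ⟨h2P, hX2, ?_⟩
  rw [E.xi_of_ne h2P]
  have key : (x / E.X (2 • P) - 4) * (1 - D * M * u ^ 2) ^ 2 =
      4 * ((D + M) * u + 3 * (D * M * u ^ 2) - (D * M * u ^ 2) ^ 2) := by
    have hE := E.eqn P hP
    rw [hu]
    field_simp
    linear_combination (-x) * hdbl + 4 * x * E.X (2 • P) * hE
  refine sm_of_mul_unit v key (by rw [map_pow, h1e, one_pow]) ?_
  refine in_mul_sm v (in_ofNat v 4) ?_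
  refine sm_sub_sm v (sm_add_sm v (in_mul_sm v (in_add_in v hD hM) hus)
    (in_mul_sm v (in_ofNat v 3) he)) ?_
  rw [pow_two]; exact sm_mul_in v he he.le

lemma step_generic {Q : G} (hQ : Q ≠ 0) (hQX : v (E.X P) ≤ v (E.X Q)) (hne : E.X Q ≠ E.X P) :
    Q + P ≠ 0 ∧ E.X (Q + P) ≠ 0 ∧
      v (E.xi P (Q + P) + E.xi P (Q - P) - 2 - 2 * E.xi P Q) < 1 := by
  set x := E.X P with hx
  set x₁ := E.X Q with hx₁
  have hx0 : x ≠ 0 := ne_zero_of_one_lt v hX
  have hX₁ : 1 < v x₁ := lt_of_lt_of_le hX hQX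
  have hx₁0 : x₁ ≠ 0 := ne_zero_of_one_lt v hX₁
  set u := x⁻¹ with hu
  set w := x₁⁻¹ with hw
  have hus : v u < 1 := val_inv_lt_one v hX
  have hws : v w < 1 := val_inv_lt_one v hX₁
  have hxi : v (x / x₁) ≤ 1 := by
    rw [map_div₀]
    exact div_le_one_of_le₀ hQX zero_le
  have hDM : v (D * M) ≤ 1 := in_mul_in v hD hM
  have he : v (D * M * u * w) < 1 := in_mul_sm v (in_mul_in v hDM hus.le) hws
  have h1e : v (1 - D * M * u * w) = 1 := val_one_sub_of_sm v he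
  have ha0 : x₁ * x - D * M ≠ 0 := by
    have : x₁ * x - D * M = x₁ * x * (1 - D * M * u * w) := by rw [hu, hw]; field_simp
    rw [this]
    exact mul_ne_zero (mul_ne_zero hx₁0 hx0) (fun h => by rw [h] at h1e; simp at h1e)
  have F3 := E.X_add_mul_X_sub hQ hP hne
  have F4 := E.X_add_add_X_sub hQ hP hne
  have hp0 : Q + P ≠ 0 := by
    intro h
    apply hne
    rw [hx₁, eq_neg_of_add_eq_zero_left h, E.X_neg]
  have hm0 : Q - P ≠ 0 := by
    intro h
    apply hne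
    rw [hx₁, sub_eq_zero.1 h]
  have hprod : E.X (Q + P) * E.X (Q - P) ≠ 0 := by
    intro h
    rw [h, zero_mul] at F3
    exact pow_ne_zero 2 ha0 F3.symm
  have hxp : E.X (Q + P) ≠ 0 := left_ne_zero_of_mul hprod
  have hxm : E.X (Q - P) ≠ 0 := right_ne_zero_of_mul hprod
  refine ⟨hp0, hxp, ?_⟩
  rw [E.xi_of_ne hp0, E.xi_of_ne hm0, E.xi_of_ne hQ]
  have key : (x / E.X (Q + P) + x / E.X (Q - P) - 2 - 2 * (x / x₁)) * (1 - D * M * u * w) ^ 2 =
      2 * ((1 + x / x₁) * (3 * (D * M * u * w) - (D * M * u * w) ^ 2) + 2 * (D + M) * w) := by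
    rw [hu, hw]
    field_simp
    linear_combination (x * x₁ * (E.X (Q + P) * E.X (Q - P))) * F4
      - (x * x₁ * (E.X (Q + P) + E.X (Q - P))) * F3
  refine sm_of_mul_unit v key (by rw [map_pow, h1e, one_pow]) ?_
  refine in_mul_sm v (in_ofNat v 2) (sm_add_sm v (in_mul_sm v (in_add_in v (by simp) hxi) ?_) ?_)
  · refine sm_sub_sm v (in_mul_sm v (in_ofNat v 3) he) ?_
    rw [pow_two]; exact sm_mul_in v he he.le
  · exact in_mul_sm v (in_mul_in v (in_ofNat v 2) (in_add_in v hD hM)) hws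

lemma xi_self : E.xi P P = 1 := by
  rw [E.xi_of_ne hP, div_self (ne_zero_of_one_lt v hX)]

lemma step {Q : G} (hQ : Q = 0 ∨ v (E.X P) ≤ v (E.X Q)) :
    (Q + P = 0 ∨ E.X (Q + P) ≠ 0) ∧
      v (E.xi P (Q + P) + E.xi P (Q - P) - 2 - 2 * E.xi P Q) < 1 := by
  have hself := E.xi_self v hD hM h2 hP hX
  have hx0 : E.X P ≠ 0 := ne_zero_of_one_lt v hX
  obtain ⟨h2P, hX2, hdbl⟩ := E.dbl_kernel v hD hM h2 hP hX
  by_cases hQ0 : Q = 0
  · subst hQ0
    refine ⟨Or.inr (by rwa [zero_add]), ?_⟩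
    rw [zero_add, zero_sub, E.xi_neg, hself, E.xi_zero]
    norm_num
  have hQX := hQ.resolve_left hQ0
  by_cases hne : E.X Q = E.X P
  · rcases E.eq_or_eq_neg hQ0 hP hne with rfl | rfl
    · rw [← two_nsmul, sub_self, E.xi_zero, hself]
      refine ⟨Or.inr hX2, ?_⟩
      have : E.xi Q (2 • Q) + 0 - 2 - 2 * 1 = E.xi Q (2 • Q) - 4 := by ring
      rwa [this]
    · refine ⟨Or.inl (neg_add_cancel P), ?_⟩
      have h1 : -P - P = -(2 • P) := by rw [two_nsmul]; abel
      rw [neg_add_cancel, E.xi_zero, h1, E.xi_neg, E.xi_neg, hself]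
      have : 0 + E.xi P (2 • P) - 2 - 2 * 1 = E.xi P (2 • P) - 4 := by ring
      rwa [this]
  · obtain ⟨-, h2, h3⟩ := E.step_generic v hD hM h2 hP hX hQ0 hQX hne
    exact ⟨Or.inr h2, h3⟩

lemma kernel_induction (k : ℕ) :
    ((k • P = 0 ∨ v (E.X P) ≤ v (E.X (k • P))) ∧ v (E.xi P (k • P) - (k : K) ^ 2) < 1) ∧
    (((k + 1) • P = 0 ∨ v (E.X P) ≤ v (E.X ((k + 1) • P))) ∧
      v (E.xi P ((k + 1) • P) - ((k + 1 : ℕ) : K) ^ 2) < 1) := by
  induction k with
  | zero =>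
    refine ⟨⟨Or.inl (zero_nsmul P), ?_⟩, ⟨Or.inr (by rw [zero_add, one_nsmul]), ?_⟩⟩
    · rw [zero_nsmul, E.xi_zero]; simp
    · rw [zero_add, one_nsmul, E.xi_self v hD hM h2 hP hX]; simp
  | succ k ih =>
    obtain ⟨⟨h0a, h0b⟩, ⟨h1a, h1b⟩⟩ := ih
    refine ⟨⟨h1a, h1b⟩, ?_⟩
    obtain ⟨hs1, hs2⟩ := E.step v hD hM h2 hP hX h1a
    have e1 : (k + 1) • P + P = (k + 1 + 1) • P := (succ_nsmul P (k + 1)).symm
    have e2 : (k + 1) • P - P = k • P := by rw [succ_nsmul]; abel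
    rw [e1, e2] at hs2
    rw [e1] at hs1
    have hsm : v (E.xi P ((k + 1 + 1) • P) - ((k + 1 + 1 : ℕ) : K) ^ 2) < 1 := by
      have : E.xi P ((k + 1 + 1) • P) - ((k + 1 + 1 : ℕ) : K) ^ 2 =
          (E.xi P ((k + 1 + 1) • P) + E.xi P (k • P) - 2 - 2 * E.xi P ((k + 1) • P))
          - (E.xi P (k • P) - (k : K) ^ 2)
          + 2 * (E.xi P ((k + 1) • P) - ((k + 1 : ℕ) : K) ^ 2) := by
        push_cast; ring
      rw [this]
      exact sm_add_sm v (sm_sub_sm v hs2 h0b) (in_mul_sm v (in_ofNat v 2) h1b)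
    refine ⟨?_, hsm⟩
    rcases hs1 with hs1 | hs1
    · exact Or.inl hs1
    · by_cases h0 : (k + 1 + 1) • P = 0
      · exact Or.inl h0
      · right
        have hin : v (E.xi P ((k + 1 + 1) • P)) ≤ 1 := by
          have : E.xi P ((k + 1 + 1) • P) =
              (E.xi P ((k + 1 + 1) • P) - ((k + 1 + 1 : ℕ) : K) ^ 2) + ((k + 1 + 1 : ℕ) : K) ^ 2 := by
            ring
          rw [this]
          exact in_add_in v hsm.le (in_pow v (in_natCast v _) 2)
        rw [E.xi_of_ne h0, map_div₀] at hin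
        have hpos : 0 < v (E.X ((k + 1 + 1) • P)) := by
          rw [Valuation.pos_iff]; exact hs1
        exact (div_le_one₀ hpos).1 hin

end kernel

/-- (G1): a nonzero point killed by `n` with `|n| = 1` has `|X| ≤ 1`. -/
theorem val_X_le_one_of_nsmul (hD : v D ≤ 1) (hM : v M ≤ 1) (h2 : (2 : K) ≠ 0) {n : ℕ}
    (hn : v (n : K) = 1) {T : G} (hT0 : T ≠ 0) (hT : n • T = 0) : v (E.X T) ≤ 1 := by
  by_contra hX
  rw [not_le] at hX
  have h := (E.kernel_induction v hD hM h2 hT0 hX n).1.2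
  rw [hT, E.xi_zero, zero_sub, Valuation.map_neg, map_pow, hn, one_pow] at h
  exact lt_irrefl _ h

variable {v} {p : ℕ}

omit E in
lemma _root_.Fermat.Agent.S05Aux.ValHyp.two_ne_zero (H : ValHyp v D M p) : (2 : K) ≠ 0 := by
  intro h
  have := H.two
  rw [h] at this
  simp at this

/-- (G1) -/
theorem val_X_le_one (H : ValHyp v D M p) {T : G} (hT0 : T ≠ 0) (hT : p • T = 0) :
    v (E.X T) ≤ 1 :=
  E.val_X_le_one_of_nsmul v H.vD H.vM.le H.two_ne_zero H.vp hT0 hT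

omit E in
lemma _root_.Fermat.Agent.S05Aux.ValHyp.two_nsmul_ne_zero (H : ValHyp v D M p) {T : G}
    (hT0 : T ≠ 0) (hT : p • T = 0) : 2 • T ≠ 0 := by
  intro h
  obtain ⟨m, hm⟩ := H.odd
  apply hT0
  rw [hm, add_nsmul, one_nsmul, mul_nsmul, h, nsmul_zero, zero_add] at hT
  exact hT

omit E in
lemma val_eq_one_of_add_sm {a b : K} (ha : v a = 1) (hb : v b < 1) : v (b + a) = 1 := by
  rw [← ha] at hb ⊢
  exact v.map_add_eq_of_lt_right hb

/-- (G2) -/
theorem val_Y_eq_one (H : ValHyp v D M p) {T : G} (hT0 : T ≠ 0) (hT : p • T = 0)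
    (hX : v (E.X T) = 1 ∨ v D = 1) : v (E.Y T) = 1 := by
  have hx : v (E.X T) ≤ 1 := E.val_X_le_one H hT0 hT
  have h2T : 2 • T ≠ 0 := H.two_nsmul_ne_zero hT0 hT
  have hp2T : p • (2 • T) = 0 := by rw [smul_comm, hT, smul_zero]
  have hx2 : v (E.X (2 • T)) ≤ 1 := E.val_X_le_one H h2T hp2T
  have hy0 : E.Y T ≠ 0 := fun h => h2T (E.two_nsmul_eq_zero_of_Y hT0 h)
  have heq := E.eqn T hT0
  have hdbl := E.X_two T hT0 hy0
  set x := E.X T with hxdef
  set y := E.Y T with hydef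
  have hxD : v (x + D) ≤ 1 := in_add_in v hx H.vD
  have hxM : v (x + M) ≤ 1 := in_add_in v hx H.vM.le
  have hveq : v y ^ 2 = v x * v (x + D) * v (x + M) := by
    rw [← map_pow, heq, map_mul, map_mul]
  have hy1 : v y ≤ 1 := by
    have : v y ^ 2 ≤ 1 := by
      rw [hveq]; exact mul_le_one' (mul_le_one' hx hxD) hxM
    exact (pow_le_one_iff (two_ne_zero)).1 this
  by_contra hne
  have hylt : v y < 1 := lt_of_le_of_ne hy1 hne
  have hMD : v (M - D) = 1 := by rw [← H.vDM, ← Valuation.map_neg]; congr 1; ring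
  -- `x ^ 2 - D * M` is a unit
  have hunit : v (x ^ 2 - D * M) = 1 := by
    by_cases c1 : v x < 1
    · have hD1 : v D = 1 := hX.resolve_left c1.ne
      have : x ^ 2 - D * M = x * x + -(D * M) := by ring
      rw [this]
      exact val_eq_one_of_add_sm (by rw [Valuation.map_neg, map_mul, hD1, H.vM, one_mul])
        (sm_mul_in v c1 hx)
    have c1' : v x = 1 := le_antisymm hx (not_lt.1 c1)
    by_cases c2 : v (x + D) < 1
    · have hD1 : v D = 1 := by
        by_contra hD1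
        have hDlt : v D < 1 := lt_of_le_of_ne H.vD hD1
        have : v (x + D) = 1 := by rw [add_comm]; exact val_eq_one_of_add_sm c1' hDlt
        exact c2.ne this
      have : x ^ 2 - D * M = (x + D) * (x - D) + D * (D - M) := by ring
      rw [this]
      exact val_eq_one_of_add_sm (by rw [map_mul, hD1, H.vDM, one_mul])
        (sm_mul_in v c2 (in_sub_in v hx H.vD))
    have c2' : v (x + D) = 1 := le_antisymm hxD (not_lt.1 c2)
    have c3 : v (x + M) < 1 := by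
      by_contra c3
      have c3' : v (x + M) = 1 := le_antisymm hxM (not_lt.1 c3)
      rw [c1', c2', c3', one_mul, one_mul] at hveq
      exact hne ((pow_eq_one_iff).1 hveq |>.resolve_right two_ne_zero)
    have : x ^ 2 - D * M = (x + M) * (x - M) + M * (M - D) := by ring
    rw [this]
    exact val_eq_one_of_add_sm (by rw [map_mul, H.vM, hMD, one_mul])
      (sm_mul_in v c3 (in_sub_in v hx H.vM.le))
  have h4 : v (4 : K) = 1 := by
    have : (4 : K) = 2 * 2 := by norm_num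
    rw [this, map_mul, H.two, one_mul]
  have hv := congrArg v hdbl
  rw [map_mul, map_mul, h4, one_mul, map_pow, map_pow, hunit, one_pow] at hv
  have : v (E.X (2 • T)) * v y ^ 2 < 1 := by
    calc v (E.X (2 • T)) * v y ^ 2 ≤ 1 * v y ^ 2 := mul_le_mul_left hx2 _
      _ = v y ^ 2 := one_mul _
      _ < 1 := pow_lt_one₀ zero_le hylt two_ne_zero
  exact this.ne hv

end XYModel

end Fermat.Agent.S05Aux
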