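import Fermat.Agent.S05.Model

/-!
# S05, step (M1): the tropical group law on a curve with multiplicative reduction
-/

set_option autoImplicit false

namespace Fermat.Agent.S05Aux

section OrderedGroup

variable {Γ₀ : Type*} [LinearOrderedCommGroupWithZero Γ₀]

/-- `x ~ y` iff `x = y ^ (± 1) * δ ^ (2 j)` for some integer `j`. -/
def Rel (δ x y : Γ₀) : Prop := ∃ j : ℤ, x = y * δ ^ (2 * j) ∨ x = y⁻¹ * δ ^ (2 * j)

lemma Rel.refl (δ x : Γ₀) : Rel δ x x := ⟨0, Or.inl (by simp)⟩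

lemma Rel.of_eq {δ x y : Γ₀} (h : x = y) : Rel δ x y := h ▸ Rel.refl δ x

lemma Rel.symm {δ x y : Γ₀} (hδ : δ ≠ 0) (h : Rel δ x y) : Rel δ y x := by
  obtain ⟨j, h | h⟩ := h
  · refine ⟨-j, Or.inl ?_⟩
    rw [h, mul_assoc, ← zpow_add₀ hδ]
    simp
  · refine ⟨j, Or.inr ?_⟩
    rw [h, mul_inv, inv_inv, mul_assoc, ← zpow_neg, ← zpow_add₀ hδ]
    simp

lemma Rel.trans {δ x y z : Γ₀} (hδ : δ ≠ 0) (h1 : Rel δ x y) (h2 : Rel δ y z) : Rel δ x z := by
  obtain ⟨i, h1 | h1⟩ := h1 <;> obtain ⟨j, h2 | h2⟩ := h2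
  · exact ⟨j + i, Or.inl (by rw [h1, h2, mul_assoc, ← zpow_add₀ hδ, mul_add])⟩
  · exact ⟨j + i, Or.inr (by rw [h1, h2, mul_assoc, ← zpow_add₀ hδ, mul_add])⟩
  · exact ⟨-j + i, Or.inr (by
      rw [h1, h2, mul_inv, mul_assoc, ← zpow_neg, ← zpow_add₀ hδ, mul_add, mul_neg])⟩
  · exact ⟨-j + i, Or.inl (by
      rw [h1, h2, mul_inv, inv_inv, mul_assoc, ← zpow_neg, ← zpow_add₀ hδ, mul_add, mul_neg])⟩

lemma Rel.inv_right {δ x y : Γ₀} (h : Rel δ x y) : Rel δ x y⁻¹ := by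
  obtain ⟨j, h | h⟩ := h
  · exact ⟨j, Or.inr (by rw [inv_inv, h])⟩
  · exact ⟨j, Or.inl h⟩

/-- `x * y = δ ^ 2` implies `x ~ y`. -/
lemma Rel.of_mul_eq {δ x y : Γ₀} (hy : y ≠ 0) (h : x * y = δ ^ 2) : Rel δ x y := by
  refine ⟨1, Or.inr ?_⟩
  rw [mul_one, zpow_ofNat, ← h]
  field_simp

/-- the unordered pair `{x₁, x₂}` is equivalent to the unordered pair `{y₁, y₂}`. -/
def PairRel (δ x₁ x₂ y₁ y₂ : Γ₀) : Prop :=
  (Rel δ x₁ y₁ ∧ Rel δ x₂ y₂) ∨ (Rel δ x₁ y₂ ∧ Rel δ x₂ y₁)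

lemma PairRel.swap_left {δ x₁ x₂ y₁ y₂ : Γ₀} (h : PairRel δ x₁ x₂ y₁ y₂) :
    PairRel δ x₂ x₁ y₁ y₂ := by
  rcases h with h | h
  · exact Or.inr ⟨h.2, h.1⟩
  · exact Or.inl ⟨h.2, h.1⟩

/-- clamp a value to the interval `[δ, 1]`. -/
def clamp (δ x : Γ₀) : Γ₀ := max δ (min 1 x)

lemma clamp_of_one_le {δ x : Γ₀} (hδ : δ ≤ 1) (h : 1 ≤ x) : clamp δ x = 1 := by
  rw [clamp, min_eq_left h, max_eq_right hδ]

lemma clamp_of_le {δ x : Γ₀} (hδ : δ ≤ 1) (h : x ≤ δ) : clamp δ x = δ := by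
  rw [clamp, min_eq_right (h.trans hδ), max_eq_left h]

lemma clamp_of_mem {δ x : Γ₀} (h1 : δ ≤ x) (h2 : x ≤ 1) : clamp δ x = x := by
  rw [clamp, min_eq_right h2, max_eq_right h1]

lemma clamp_ne_zero {δ x : Γ₀} (hδ : δ ≠ 0) : clamp δ x ≠ 0 :=
  (lt_of_lt_of_le (zero_lt_iff.2 hδ) (le_max_left _ _)).ne'

end OrderedGroup

section NewtonPolygon

variable {K : Type*} [Field K] {Γ₀ : Type*} [LinearOrderedCommGroupWithZero Γ₀]
  (v : Valuation K Γ₀)

lemma np_lt {r₁ r₂ : K} (h : v r₁ * v r₂ < v (r₁ + r₂) ^ 2) :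
    (v r₁ = v (r₁ + r₂) ∧ v r₂ < v r₁) ∨ (v r₂ = v (r₁ + r₂) ∧ v r₁ < v r₂) := by
  rcases lt_trichotomy (v r₁) (v r₂) with h1 | h1 | h1
  · exact Or.inr ⟨(v.map_add_eq_of_lt_right h1).symm, h1⟩
  · exfalso
    have h2 : v (r₁ + r₂) ≤ v r₁ := v.map_add_le le_rfl h1.ge
    have h3 : v (r₁ + r₂) ^ 2 ≤ v r₁ * v r₂ := by
      rw [← h1, ← pow_two]
      exact pow_le_pow_left₀ zero_le h2 2
    exact absurd h (not_lt.2 h3)
  · exact Or.inl ⟨(v.map_add_eq_of_lt_left h1).symm, h1⟩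

lemma np_le {r₁ r₂ : K} (h : v (r₁ + r₂) ^ 2 ≤ v r₁ * v r₂) : v r₁ = v r₂ := by
  rcases lt_trichotomy (v r₁) (v r₂) with h1 | h1 | h1
  · exfalso
    rw [v.map_add_eq_of_lt_right h1, pow_two] at h
    have h0 : 0 < v r₂ := lt_of_le_of_lt zero_le h1
    exact absurd h (not_le.2 (mul_lt_mul_of_pos_right h1 h0))
  · exact h1
  · exfalso
    rw [v.map_add_eq_of_lt_left h1, pow_two] at h
    have h0 : 0 < v r₁ := lt_of_le_of_lt zero_le h1
    exact absurd h (not_le.2 (mul_lt_mul_of_pos_left h1 h0))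

lemma np_one_le {r₁ r₂ : K} (h1 : v (r₁ + r₂) ≤ v r₁ * v r₂) (h2 : 1 ≤ v r₁ * v r₂) :
    1 ≤ v r₁ ∧ 1 ≤ v r₂ := by
  have key : ∀ s₁ s₂ : K, v (s₁ + s₂) ≤ v s₁ * v s₂ → 1 ≤ v s₁ * v s₂ → 1 ≤ v s₂ := by
    intro s₁ s₂ h1 h2
    by_contra h3
    rw [not_le] at h3
    have h0 : 0 < v s₁ := by
      rw [zero_lt_iff]; intro h; rw [h, zero_mul] at h2; exact absurd h2 (not_le.2 zero_lt_one)
    have h4 : v s₁ * v s₂ < v s₁ := mul_lt_of_lt_one_right h0 h3
    have h5 : v s₂ < v s₁ := h3.trans (lt_of_le_of_lt h2 h4)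
    rw [v.map_add_eq_of_lt_left h5] at h1
    exact absurd h1 (not_le.2 h4)
  exact ⟨key r₂ r₁ (by rwa [add_comm, mul_comm]) (by rwa [mul_comm]), key r₁ r₂ h1 h2⟩

lemma np_le_of_le {r₁ r₂ : K} {γ : Γ₀} (h1 : v (r₁ + r₂) ≤ γ) (h2 : v r₁ * v r₂ ≤ γ ^ 2) :
    v r₁ ≤ γ ∧ v r₂ ≤ γ := by
  have key : ∀ s₁ s₂ : K, v (s₁ + s₂) ≤ γ → v s₁ * v s₂ ≤ γ ^ 2 → v s₁ ≤ γ := by
    intro s₁ s₂ h1 h2
    by_contra h3
    rw [not_le] at h3
    have h4 : v s₂ < v s₁ := by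
      by_contra h5
      rw [not_lt] at h5
      have : γ ^ 2 < v s₁ * v s₂ := by
        rw [pow_two]
        exact mul_lt_mul'' h3 (lt_of_lt_of_le h3 h5) zero_le zero_le
      exact absurd h2 (not_le.2 this)
    rw [v.map_add_eq_of_lt_left h4] at h1
    exact absurd h1 (not_le.2 h3)
  exact ⟨key r₁ r₂ h1 h2, key r₂ r₁ (by rwa [add_comm]) (by rwa [mul_comm])⟩

end NewtonPolygon

section Trop

variable {K : Type*} [Field K] {Γ₀ : Type*} [LinearOrderedCommGroupWithZero Γ₀]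
  {v : Valuation K Γ₀} {D M : K}

/-- hypotheses for the case of multiplicative reduction. -/
structure BadHyp (v : Valuation K Γ₀) (D M : K) : Prop where
  two : v 2 = 1
  vM : v M = 1
  vD : v D < 1
  D0 : D ≠ 0

namespace BadHyp

variable (H : BadHyp v D M)
include H

lemma vD_ne : v D ≠ 0 := (v.ne_zero_iff).2 H.D0

lemma vD_pos : 0 < v D := zero_lt_iff.2 H.vD_ne

lemma vDM : v (D * M) = v D := by rw [map_mul, H.vM, mul_one]

lemma vDaddM : v (D + M) = 1 := by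
  rw [v.map_add_eq_of_lt_right (by rw [H.vM]; exact H.vD), H.vM]

lemma v_term2 (X₁ X₂ : K) : v (2 * (D + M) * (X₁ * X₂)) = v X₁ * v X₂ := by
  rw [map_mul, map_mul, map_mul, H.two, H.vDaddM, one_mul, one_mul]

end BadHyp

/-- auxiliary: both roots have value `≥ 1`. -/
lemma trop_aux_one_le {r₁ r₂ : K} {m γ : Γ₀} (hm0 : m ≠ 0) (hm : m ≤ γ)
    (hP : v r₁ * v r₂ * m ^ 2 = γ ^ 2) (hS : v (r₁ + r₂) * m ^ 2 ≤ γ ^ 2) :
    1 ≤ v r₁ ∧ 1 ≤ v r₂ := by
  have hm2 : 0 < m ^ 2 := pow_pos (zero_lt_iff.2 hm0) 2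
  apply np_one_le
  · exact le_of_mul_le_mul_right (by rw [hP]; exact hS) hm2
  · apply le_of_mul_le_mul_right _ hm2
    rw [hP, one_mul]
    exact pow_le_pow_left₀ zero_le hm 2

/-- the "second root": `ρ * (a b) = t ^ 2` with `t = v (X₁ X₂ - D M)`. -/
lemma trop_second_root (H : BadHyp v D M) {Z : K} {ρ : Γ₀} (hZ1 : v D ^ 2 < v Z) (hZ2 : v Z < 1)
    (hρ : ρ * v Z = v (Z - D * M) ^ 2) : Rel (v D) (clamp (v D) ρ) (v Z) := by
  have hδ := H.vD_pos
  have hδ1 := H.vD.le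
  have hZ0 : 0 < v Z := lt_of_le_of_lt zero_le hZ1
  rcases lt_trichotomy (v Z) (v D) with h | h | h
  · -- `t = δ`, `ρ = δ ^ 2 / (a b)`
    rw [v.map_sub_eq_of_lt_right (by rw [H.vDM]; exact h), H.vDM] at hρ
    have h1 : v D ≤ ρ := by
      apply le_of_mul_le_mul_right _ hZ0
      rw [hρ, pow_two]
      exact mul_le_mul' le_rfl h.le
    have h2 : ρ ≤ 1 := by
      apply le_of_mul_le_mul_right _ hZ0
      rw [hρ, one_mul]
      exact hZ1.le
    rw [clamp_of_mem h1 h2]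
    exact Rel.of_mul_eq hZ0.ne' hρ
  · -- `t ≤ δ`
    have h1 : v (Z - D * M) ≤ v D := v.map_sub_le h.le (by rw [H.vDM])
    have h2 : ρ ≤ v D := by
      apply le_of_mul_le_mul_right _ hZ0
      rw [hρ, h, ← pow_two]
      exact pow_le_pow_left₀ zero_le h1 2
    rw [clamp_of_le hδ1 h2, h]
    exact Rel.refl _ _
  · -- `t = a b`
    rw [v.map_sub_eq_of_lt_left (by rw [H.vDM]; exact h), pow_two] at hρ
    have h1 : ρ = v Z := mul_right_cancel₀ hZ0.ne' hρ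
    rw [h1, clamp_of_mem h.le hZ2.le]
    exact Rel.refl _ _

lemma trop_add_aux (H : BadHyp v D M) {X₁ X₂ r₁ r₂ : K} (hne : X₁ ≠ X₂)
    (hab : v X₁ ≤ v X₂) (hb : v X₂ ≤ 1)
    (hP : r₁ * r₂ * (X₁ - X₂) ^ 2 = (X₁ * X₂ - D * M) ^ 2)
    (hS : (r₁ + r₂) * (X₁ - X₂) ^ 2 =
      2 * ((X₁ + X₂) * (X₁ * X₂ + D * M) + 2 * (D + M) * (X₁ * X₂))) :
    PairRel (v D) (clamp (v D) (v r₁)) (clamp (v D) (v r₂))
      (clamp (v D) (v X₁) * clamp (v D) (v X₂)) (clamp (v D) (v X₁) / clamp (v D) (v X₂)) := by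
  have hδ := H.vD_pos
  have hδ0 := H.vD_ne
  have hδ1 := H.vD.le
  have hm0 : v (X₁ - X₂) ≠ 0 := (v.ne_zero_iff).2 (sub_ne_zero.2 hne)
  have hm2 : 0 < v (X₁ - X₂) ^ 2 := pow_pos (zero_lt_iff.2 hm0) 2
  have hP' : v r₁ * v r₂ * v (X₁ - X₂) ^ 2 = v (X₁ * X₂ - D * M) ^ 2 := by
    have := congrArg v hP
    simpa only [map_mul, map_pow] using this
  have hS' : v (r₁ + r₂) * v (X₁ - X₂) ^ 2 =
      v ((X₁ + X₂) * (X₁ * X₂ + D * M) + 2 * (D + M) * (X₁ * X₂)) := by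
    have := congrArg v hS
    rw [map_mul, map_pow, map_mul v 2, H.two, one_mul] at this
    exact this
  have hT2 := H.v_term2 X₁ X₂
  have hXX : v (X₁ * X₂) = v X₁ * v X₂ := map_mul _ _ _
  by_cases hbδ : v X₂ ≤ v D
  · -- Case 1 : `a ≤ b ≤ δ`
    have haδ := hab.trans hbδ
    have hlt : v (X₁ * X₂) < v (D * M) := by
      rw [H.vDM, hXX]
      calc v X₁ * v X₂ ≤ v D * v D := mul_le_mul' haδ hbδ
        _ < v D := mul_lt_of_lt_one_right hδ H.vD
    have ht : v (X₁ * X₂ - D * M) = v D := by rw [v.map_sub_eq_of_lt_right hlt, H.vDM]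
    have ht' : v (X₁ * X₂ + D * M) = v D := by rw [v.map_add_eq_of_lt_right hlt, H.vDM]
    have hn : v ((X₁ + X₂) * (X₁ * X₂ + D * M) + 2 * (D + M) * (X₁ * X₂)) ≤ v D ^ 2 := by
      apply v.map_add_le
      · rw [map_mul, ht', pow_two]
        exact mul_le_mul' (v.map_add_le haδ hbδ) le_rfl
      · rw [hT2, pow_two]
        exact mul_le_mul' haδ hbδ
    obtain ⟨h1, h2⟩ := trop_aux_one_le hm0 (v.map_sub_le haδ hbδ) (by rw [hP', ht])
      (by rw [hS']; exact hn)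
    rw [clamp_of_one_le hδ1 h1, clamp_of_one_le hδ1 h2, clamp_of_le hδ1 haδ, clamp_of_le hδ1 hbδ]
    refine Or.inl ⟨⟨-1, Or.inl ?_⟩, Rel.of_eq (div_self hδ0).symm⟩
    rw [← pow_two, ← zpow_ofNat, ← zpow_add₀ hδ0]
    simp
  rw [not_le] at hbδ
  rcases hb.lt_or_eq with hb1 | hb1
  swap
  · rcases (hab.trans hb).lt_or_eq with ha1 | ha1
    swap
    · -- Case 2 : `a = b = 1`
      have hlt : v (D * M) < v (X₁ * X₂) := by rw [H.vDM, hXX, ha1, hb1, one_mul]; exact H.vD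
      have ht : v (X₁ * X₂ - D * M) = 1 := by
        rw [v.map_sub_eq_of_lt_left hlt, hXX, ha1, hb1, one_mul]
      have ht' : v (X₁ * X₂ + D * M) = 1 := by
        rw [v.map_add_eq_of_lt_left hlt, hXX, ha1, hb1, one_mul]
      have hn : v ((X₁ + X₂) * (X₁ * X₂ + D * M) + 2 * (D + M) * (X₁ * X₂)) ≤ 1 ^ 2 := by
        rw [one_pow]
        apply v.map_add_le
        · rw [map_mul, ht', mul_one]
          exact v.map_add_le ha1.le hb1.le
        · rw [hT2, ha1, hb1, one_mul]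
      obtain ⟨h1, h2⟩ := trop_aux_one_le hm0 (v.map_sub_le ha1.le hb1.le) (by rw [hP', ht])
        (by rw [hS']; exact hn)
      rw [clamp_of_one_le hδ1 h1, clamp_of_one_le hδ1 h2, clamp_of_one_le hδ1 ha1.ge,
        clamp_of_one_le hδ1 hb1.ge]
      exact Or.inl ⟨Rel.of_eq (by simp), Rel.of_eq (by simp)⟩
    · -- Case 3 : `a < b = 1`
      have hm : v (X₁ - X₂) = 1 := by rw [v.map_sub_eq_of_lt_right (by rw [hb1]; exact ha1), hb1]
      rw [hm, one_pow, mul_one] at hP' hS'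
      have hca : clamp (v D) (v X₁) = max (v D) (v X₁) := by rw [clamp, min_eq_right ha1.le]
      have hn : v ((X₁ + X₂) * (X₁ * X₂ + D * M) + 2 * (D + M) * (X₁ * X₂)) ≤
          max (v D) (v X₁) := by
        apply v.map_add_le
        · rw [map_mul]
          calc v (X₁ + X₂) * v (X₁ * X₂ + D * M) ≤ 1 * max (v D) (v X₁) := by
                apply mul_le_mul' (v.map_add_le ha1.le hb1.le)
                apply v.map_add_le
                · rw [hXX, hb1, mul_one]; exact le_max_right _ _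
                · rw [H.vDM]; exact le_max_left _ _
            _ = _ := one_mul _
        · rw [hT2, hb1, mul_one]; exact le_max_right _ _
      have hmain : clamp (v D) (v r₁) = max (v D) (v X₁) ∧
          clamp (v D) (v r₂) = max (v D) (v X₁) := by
        rcases eq_or_ne (v X₁) (v D) with hE | hE
        · have ht : v (X₁ * X₂ - D * M) ≤ v D :=
            v.map_sub_le (by rw [hXX, hb1, mul_one, hE]) (by rw [H.vDM])
          rw [hE, max_self] at hn ⊢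
          obtain ⟨h1, h2⟩ := np_le_of_le v (γ := v D) (by rw [hS']; exact hn)
            (by rw [hP']; exact pow_le_pow_left₀ zero_le ht 2)
          exact ⟨clamp_of_le hδ1 h1, clamp_of_le hδ1 h2⟩
        · have ht : v (X₁ * X₂ - D * M) = max (v D) (v X₁) := by
            rcases hE.lt_or_gt with h | h
            · rw [v.map_sub_eq_of_lt_right (by rw [H.vDM, hXX, hb1, mul_one]; exact h), H.vDM,
                max_eq_left h.le]
            · rw [v.map_sub_eq_of_lt_left (by rw [H.vDM, hXX, hb1, mul_one]; exact h), hXX, hb1,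
                mul_one, max_eq_right h.le]
          rw [ht] at hP'
          have h12 : v r₁ = v r₂ := np_le v (by
            rw [hP', hS']; exact pow_le_pow_left₀ zero_le hn 2)
          have h1 : v r₁ = max (v D) (v X₁) := by
            rw [← h12, ← pow_two] at hP'
            exact (pow_left_inj₀ zero_le zero_le two_ne_zero).1 hP'
          have h3 : max (v D) (v X₁) ≤ 1 := max_le hδ1 ha1.le
          rw [← h12, h1]
          exact ⟨clamp_of_mem (le_max_left _ _) h3, clamp_of_mem (le_max_left _ _) h3⟩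
      rw [hmain.1, hmain.2, hca, clamp_of_one_le hδ1 hb1.ge]
      exact Or.inl ⟨Rel.of_eq (by simp), Rel.of_eq (by simp)⟩
  have hb0 : 0 < v X₂ := hδ.trans hbδ
  by_cases haδ : v X₁ ≤ v D
  · -- Case 4 : `a ≤ δ < b < 1`
    have halt : v X₁ < v X₂ := lt_of_le_of_lt haδ hbδ
    have hm : v (X₁ - X₂) = v X₂ := v.map_sub_eq_of_lt_right halt
    have hlt : v (X₁ * X₂) < v (D * M) := by
      rw [H.vDM, hXX]
      calc v X₁ * v X₂ ≤ v D * v X₂ := mul_le_mul' haδ le_rfl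
        _ < v D := mul_lt_of_lt_one_right hδ hb1
    have ht : v (X₁ * X₂ - D * M) = v D := by rw [v.map_sub_eq_of_lt_right hlt, H.vDM]
    have ht' : v (X₁ * X₂ + D * M) = v D := by rw [v.map_add_eq_of_lt_right hlt, H.vDM]
    have hn : v ((X₁ + X₂) * (X₁ * X₂ + D * M) + 2 * (D + M) * (X₁ * X₂)) ≤ v X₂ * v D := by
      apply v.map_add_le
      · rw [map_mul, ht']
        exact mul_le_mul' (v.map_add_le halt.le le_rfl) le_rfl
      · rw [hT2, mul_comm]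
        exact mul_le_mul' le_rfl haδ
    rw [hm, ht] at hP'
    rw [hm] at hS' hm2
    have h12 : v r₁ = v r₂ := by
      apply np_le v
      apply le_of_mul_le_mul_right _ (mul_pos hm2 hm2)
      calc v (r₁ + r₂) ^ 2 * (v X₂ ^ 2 * v X₂ ^ 2) = (v (r₁ + r₂) * v X₂ ^ 2) ^ 2 := by simp only [pow_two]; ac_rfl
        _ ≤ (v X₂ * v D) ^ 2 := pow_le_pow_left₀ zero_le (by rw [hS']; exact hn) 2
        _ = v r₁ * v r₂ * v X₂ ^ 2 * v X₂ ^ 2 := by rw [hP']; simp only [pow_two]; ac_rfl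
        _ = v r₁ * v r₂ * (v X₂ ^ 2 * v X₂ ^ 2) := by simp only [pow_two]; ac_rfl
    have hρ : v r₁ * v X₂ = v D := by
      rw [← h12] at hP'
      apply (pow_left_inj₀ zero_le zero_le two_ne_zero).1
      rw [← hP']; simp only [pow_two]; ac_rfl
    have h1 : v D ≤ v r₁ := by
      by_contra h
      rw [not_le] at h
      have : v r₁ * v X₂ < v D := lt_of_le_of_lt (mul_le_of_le_one_right zero_le hb1.le) h
      exact absurd hρ this.ne
    have h2 : v r₁ ≤ 1 := by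
      by_contra h
      rw [not_le] at h
      have : v X₂ ≤ v r₁ * v X₂ := le_mul_of_one_le_left zero_le h.le
      rw [hρ] at this
      exact absurd this (not_le.2 hbδ)
    rw [← h12, clamp_of_mem h1 h2, clamp_of_le hδ1 haδ, clamp_of_mem hbδ.le hb1.le]
    refine Or.inl ⟨Rel.of_mul_eq (mul_pos hδ hb0).ne' ?_, Rel.of_eq (eq_div_of_mul_eq hb0.ne' hρ)⟩
    calc v r₁ * (v D * v X₂) = v D * (v r₁ * v X₂) := by ac_rfl
      _ = v D ^ 2 := by rw [hρ, pow_two]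
  · -- Case 5 : `δ < a ≤ b < 1`
    rw [not_le] at haδ
    have ha0 : 0 < v X₁ := hδ.trans haδ
    have ha1 : v X₁ < 1 := lt_of_le_of_lt hab hb1
    have hab0 : 0 < v X₁ * v X₂ := mul_pos ha0 hb0
    have hmb : v (X₁ - X₂) ≤ v X₂ := v.map_sub_le hab le_rfl
    have hT1 : v ((X₁ + X₂) * (X₁ * X₂ + D * M)) < v X₁ * v X₂ := by
      rw [map_mul]
      have h1 : v (X₁ + X₂) ≤ v X₂ := v.map_add_le hab le_rfl
      have h2 : v (X₁ * X₂ + D * M) < v X₁ := by
        apply v.map_add_lt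
        · rw [hXX]; exact mul_lt_of_lt_one_right ha0 hb1
        · rw [H.vDM]; exact haδ
      calc v (X₁ + X₂) * v (X₁ * X₂ + D * M) ≤ v X₂ * v (X₁ * X₂ + D * M) := mul_le_mul' h1 le_rfl
        _ < v X₂ * v X₁ := mul_lt_mul_of_pos_left h2 hb0
        _ = v X₁ * v X₂ := mul_comm _ _
    have hn : v ((X₁ + X₂) * (X₁ * X₂ + D * M) + 2 * (D + M) * (X₁ * X₂)) = v X₁ * v X₂ := by
      rw [v.map_add_eq_of_lt_right (by rw [hT2]; exact hT1), hT2]
    rw [hn] at hS'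
    -- `t * m < a * b`
    have htm : v (X₁ * X₂ - D * M) * v (X₁ - X₂) < v X₁ * v X₂ := by
      have h1 : v (X₁ * X₂ - D * M) < v X₁ := by
        apply v.map_sub_lt
        · rw [hXX]; exact mul_lt_of_lt_one_right ha0 hb1
        · rw [H.vDM]; exact haδ
      calc v (X₁ * X₂ - D * M) * v (X₁ - X₂) ≤ v (X₁ * X₂ - D * M) * v X₂ :=
            mul_le_mul' le_rfl hmb
        _ < v X₁ * v X₂ := mul_lt_mul_of_pos_right h1 hb0
    have hnp : v r₁ * v r₂ < v (r₁ + r₂) ^ 2 := by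
      apply lt_of_mul_lt_mul_right _ (zero_le (a := v (X₁ - X₂) ^ 2 * v (X₁ - X₂) ^ 2))
      calc v r₁ * v r₂ * (v (X₁ - X₂) ^ 2 * v (X₁ - X₂) ^ 2)
          = (v r₁ * v r₂ * v (X₁ - X₂) ^ 2) * v (X₁ - X₂) ^ 2 := by simp only [pow_two]; ac_rfl
        _ = (v (X₁ * X₂ - D * M) * v (X₁ - X₂)) ^ 2 := by rw [hP']; simp only [pow_two]; ac_rfl
        _ < (v X₁ * v X₂) ^ 2 := pow_lt_pow_left₀ htm zero_le two_ne_zero
        _ = (v (r₁ + r₂) * v (X₁ - X₂) ^ 2) ^ 2 := by rw [hS']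
        _ = v (r₁ + r₂) ^ 2 * (v (X₁ - X₂) ^ 2 * v (X₁ - X₂) ^ 2) := by simp only [pow_two]; ac_rfl
    -- general statement for the two roots
    have key : ∀ ρ₁ ρ₂ : Γ₀, ρ₁ * v (X₁ - X₂) ^ 2 = v X₁ * v X₂ →
        ρ₁ * ρ₂ * v (X₁ - X₂) ^ 2 = v (X₁ * X₂ - D * M) ^ 2 →
        Rel (v D) (clamp (v D) ρ₁) (v X₁ / v X₂) ∧ Rel (v D) (clamp (v D) ρ₂) (v X₁ * v X₂) := by
      intro ρ₁ ρ₂ h1 h2
      constructor
      · rcases hab.lt_or_eq with hlt | heq
        · have hm : v (X₁ - X₂) = v X₂ := v.map_sub_eq_of_lt_right hlt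
          rw [hm] at h1
          have h3 : ρ₁ = v X₁ / v X₂ := by
            rw [eq_div_iff hb0.ne']
            apply mul_right_cancel₀ hb0.ne'
            rw [← h1]; simp only [pow_two]; ac_rfl
          have h4 : v D ≤ v X₁ / v X₂ := by
            rw [le_div_iff₀ hb0]
            exact (mul_le_of_le_one_right zero_le hb1.le).trans haδ.le
          have h5 : v X₁ / v X₂ ≤ 1 := by
            rw [div_le_iff₀ hb0, one_mul]; exact hab
          rw [h3, clamp_of_mem h4 h5]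
          exact Rel.refl _ _
        · have h3 : 1 ≤ ρ₁ := by
            apply le_of_mul_le_mul_right _ hm2
            rw [h1, one_mul, heq, ← pow_two]
            exact pow_le_pow_left₀ zero_le hmb 2
          rw [clamp_of_one_le hδ1 h3, heq, div_self hb0.ne']
          exact Rel.refl _ _
      · rw [← hXX]
        apply trop_second_root H
        · rw [hXX, pow_two]
          exact mul_lt_mul'' haδ hbδ zero_le zero_le
        · rw [hXX]
          exact (mul_lt_of_lt_one_right ha0 hb1).trans ha1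
        · rw [← h2, hXX, ← h1]; simp only [pow_two]; ac_rfl
    rw [clamp_of_mem haδ.le ha1.le, clamp_of_mem hbδ.le hb1.le]
    rcases np_lt v hnp with ⟨h1, -⟩ | ⟨h1, -⟩
    · obtain ⟨k1, k2⟩ := key (v r₁) (v r₂) (by rw [h1, hS']) hP'
      exact Or.inr ⟨k1, k2⟩
    · obtain ⟨k1, k2⟩ := key (v r₂) (v r₁) (by rw [h1, hS']) (by rw [mul_comm (v r₂), hP'])
      exact Or.inl ⟨k2, k1⟩

lemma rel_one_sq (H : BadHyp v D M) : Rel (v D) 1 (v D * v D) := by
  refine ⟨-1, Or.inl ?_⟩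
  rw [← pow_two, ← zpow_ofNat, ← zpow_add₀ H.vD_ne]
  simp

/-- The tropical addition law, at the level of valuations. -/
lemma trop_add (H : BadHyp v D M) {X₁ X₂ r₁ r₂ : K} (hne : X₁ ≠ X₂)
    (ha : v X₁ ≤ 1) (hb : v X₂ ≤ 1)
    (hP : r₁ * r₂ * (X₁ - X₂) ^ 2 = (X₁ * X₂ - D * M) ^ 2)
    (hS : (r₁ + r₂) * (X₁ - X₂) ^ 2 =
      2 * ((X₁ + X₂) * (X₁ * X₂ + D * M) + 2 * (D + M) * (X₁ * X₂))) :
    PairRel (v D) (clamp (v D) (v r₁)) (clamp (v D) (v r₂))
      (clamp (v D) (v X₁) * clamp (v D) (v X₂)) (clamp (v D) (v X₁) / clamp (v D) (v X₂)) := by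
  rcases le_total (v X₁) (v X₂) with h | h
  · exact trop_add_aux H hne h hb hP hS
  · have := trop_add_aux H hne.symm h ha (r₁ := r₁) (r₂ := r₂) (by rw [← sub_eq_zero] at hP ⊢; linear_combination hP)
      (by linear_combination hS)
    rw [mul_comm (clamp (v D) (v X₂))] at this
    rcases this with ⟨h1, h2⟩ | ⟨h1, h2⟩
    · exact Or.inl ⟨h1, by simpa using h2.inv_right⟩
    · exact Or.inr ⟨by simpa using h1.inv_right, h2⟩

/-- The tropical duplication law, at the level of valuations. -/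
lemma trop_two (H : BadHyp v D M) {X Y r : K} (ha : v X ≤ 1) (hY : Y ≠ 0)
    (heq : Y ^ 2 = X * (X + D) * (X + M)) (hr : r * (4 * Y ^ 2) = (X ^ 2 - D * M) ^ 2) :
    Rel (v D) (clamp (v D) (v r)) (clamp (v D) (v X) * clamp (v D) (v X)) := by
  have hδ := H.vD_pos
  have hδ1 := H.vD.le
  have h4 : v (4 : K) = 1 := by
    have : (4 : K) = 2 * 2 := by norm_num
    rw [this, map_mul, H.two, one_mul]
  have hY0 : 0 < v Y ^ 2 := pow_pos (zero_lt_iff.2 ((v.ne_zero_iff).2 hY)) 2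
  have hr' : v r * v Y ^ 2 = v (X * X - D * M) ^ 2 := by
    have := congrArg v hr
    rw [map_mul, map_mul, h4, one_mul, map_pow, map_pow, pow_two X] at this
    exact this
  have heq' : v Y ^ 2 = v X * v (X + D) * v (X + M) := by
    have := congrArg v heq
    rw [map_pow, map_mul, map_mul] at this
    exact this
  have hXX : v (X * X) = v X * v X := map_mul _ _ _
  by_cases haδ : v X ≤ v D
  · have hlt : v (X * X) < v (D * M) := by
      rw [H.vDM, hXX]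
      calc v X * v X ≤ v D * v D := mul_le_mul' haδ haδ
        _ < v D := mul_lt_of_lt_one_right hδ H.vD
    rw [v.map_sub_eq_of_lt_right hlt, H.vDM] at hr'
    have hY2 : v Y ^ 2 ≤ v D ^ 2 := by
      rw [heq', pow_two]
      have h1 : v (X + D) ≤ v D := v.map_add_le haδ le_rfl
      have h2 : v (X + M) ≤ 1 := v.map_add_le ha H.vM.le
      calc v X * v (X + D) * v (X + M) ≤ v D * v D * 1 := mul_le_mul' (mul_le_mul' haδ h1) h2
        _ = v D * v D := mul_one _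
    have h1 : 1 ≤ v r := by
      apply le_of_mul_le_mul_right _ hY0
      rw [hr', one_mul]; exact hY2
    rw [clamp_of_one_le hδ1 h1, clamp_of_le hδ1 haδ]
    exact rel_one_sq H
  rw [not_le] at haδ
  have ha0 : 0 < v X := hδ.trans haδ
  rcases ha.lt_or_eq with ha1 | ha1
  · have h1 : v (X + D) = v X := v.map_add_eq_of_lt_left haδ
    have h2 : v (X + M) = 1 := by rw [v.map_add_eq_of_lt_right (by rw [H.vM]; exact ha1), H.vM]
    rw [h1, h2, mul_one] at heq'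
    rw [heq', ← hXX] at hr'
    rw [clamp_of_mem haδ.le ha1.le, ← hXX]
    apply trop_second_root H _ _ hr'
    · rw [hXX, pow_two]; exact mul_lt_mul'' haδ haδ zero_le zero_le
    · rw [hXX]; exact (mul_lt_of_lt_one_right ha0 ha1).trans ha1
  · have hlt : v (D * M) < v (X * X) := by rw [H.vDM, hXX, ha1, one_mul]; exact H.vD
    rw [v.map_sub_eq_of_lt_left hlt, hXX, ha1, one_mul, one_pow] at hr'
    have hY2 : v Y ^ 2 ≤ 1 := by
      rw [heq', ha1, one_mul]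
      have h1 : v (X + D) ≤ 1 := v.map_add_le ha hδ1
      have h2 : v (X + M) ≤ 1 := v.map_add_le ha H.vM.le
      calc v (X + D) * v (X + M) ≤ 1 * 1 := mul_le_mul' h1 h2
        _ = 1 := one_mul _
    have h1 : 1 ≤ v r := by
      apply le_of_mul_le_mul_right _ hY0
      rw [hr', one_mul]; exact hY2
    rw [clamp_of_one_le hδ1 h1, clamp_of_one_le hδ1 ha1.ge, one_mul]
    exact Rel.refl _ _

end Trop

section Points

variable {K : Type*} [Field K] {Γ₀ : Type*} [LinearOrderedCommGroupWithZero Γ₀]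
  {v : Valuation K Γ₀} {D M : K} {G : Type*} [AddCommGroup G] (E : XYModel K G D M)

open Classical in
/-- the tropical invariant of a point. -/
noncomputable def XYModel.ee (v : Valuation K Γ₀) (P : G) : Γ₀ :=
  if P = 0 then 1 else clamp (v D) (v (E.X P))

/-- the points for which we prove the tropical law. -/
def XYModel.Good (v : Valuation K Γ₀) (P : G) : Prop :=
  P = 0 ∨ (v (E.X P) ≤ 1 ∧ E.Y P ≠ 0)

lemma XYModel.ee_zero : E.ee v 0 = 1 := if_pos rfl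

lemma XYModel.ee_of_ne {P : G} (h : P ≠ 0) : E.ee v P = clamp (v D) (v (E.X P)) := if_neg h

lemma XYModel.ee_neg (P : G) : E.ee v (-P) = E.ee v P := by
  by_cases h : P = 0
  · rw [h, neg_zero]
  · rw [E.ee_of_ne h, E.ee_of_ne (neg_ne_zero.2 h), E.X_neg]

lemma XYModel.ee_ne_zero (H : BadHyp v D M) (P : G) : E.ee v P ≠ 0 := by
  by_cases h : P = 0
  · rw [h, E.ee_zero]; exact one_ne_zero
  · rw [E.ee_of_ne h]; exact clamp_ne_zero H.vD_ne

lemma XYModel.rel_two (H : BadHyp v D M) {P : G} (hP0 : P ≠ 0) (hX : v (E.X P) ≤ 1)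
    (hY : E.Y P ≠ 0) : Rel (v D) (E.ee v (2 • P)) (E.ee v P * E.ee v P) := by
  have h2 : (2 : K) ≠ 0 := (v.ne_zero_iff).1 (by rw [H.two]; exact one_ne_zero)
  have h2P : 2 • P ≠ 0 := fun h => hY (E.Y_eq_zero_of_two_nsmul h2 h)
  rw [E.ee_of_ne h2P, E.ee_of_ne hP0]
  exact trop_two H hX hY (E.eqn P hP0) (E.X_two P hP0 hY)

/-- **The tropical group law.** -/
theorem XYModel.law (H : BadHyp v D M) {P Q : G} (hP : E.Good v P) (hQ : E.Good v Q) :
    PairRel (v D) (E.ee v (P + Q)) (E.ee v (P - Q)) (E.ee v P * E.ee v Q)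
      (E.ee v P / E.ee v Q) := by
  rcases hP with rfl | ⟨hPX, hPY⟩
  · rw [zero_add, zero_sub, E.ee_neg, E.ee_zero, one_mul, one_div]
    exact Or.inl ⟨Rel.refl _ _, (Rel.refl _ _).inv_right⟩
  rcases hQ with rfl | ⟨hQX, hQY⟩
  · rw [add_zero, sub_zero, E.ee_zero, mul_one, div_one]
    exact Or.inl ⟨Rel.refl _ _, Rel.refl _ _⟩
  by_cases hP0 : P = 0
  · subst hP0
    rw [zero_add, zero_sub, E.ee_neg, E.ee_zero, one_mul, one_div]
    exact Or.inl ⟨Rel.refl _ _, (Rel.refl _ _).inv_right⟩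
  by_cases hQ0 : Q = 0
  · subst hQ0
    rw [add_zero, sub_zero, E.ee_zero, mul_one, div_one]
    exact Or.inl ⟨Rel.refl _ _, Rel.refl _ _⟩
  by_cases h1 : P = Q
  · subst h1
    rw [sub_self, E.ee_zero, div_self (E.ee_ne_zero H P), ← two_nsmul]
    exact Or.inl ⟨E.rel_two H hP0 hPX hPY, Rel.refl _ _⟩
  by_cases h2 : P = -Q
  · subst h2
    rw [neg_add_cancel, E.ee_zero, E.ee_neg, div_self (E.ee_ne_zero H Q)]
    have : -Q - Q = -(2 • Q) := by rw [two_nsmul]; abel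
    rw [this, E.ee_neg]
    exact Or.inr ⟨Rel.refl _ _, E.rel_two H hQ0 hQX hQY⟩
  have hne : E.X P ≠ E.X Q := E.X_ne_of_ne hP0 hQ0 h1 h2
  have hadd : P + Q ≠ 0 := fun h => h2 (eq_neg_of_add_eq_zero_left h)
  have hsub : P - Q ≠ 0 := fun h => h1 (sub_eq_zero.1 h)
  rw [E.ee_of_ne hadd, E.ee_of_ne hsub, E.ee_of_ne hP0, E.ee_of_ne hQ0]
  exact trop_add H hne hPX hQX (E.X_add_mul_X_sub hP0 hQ0 hne) (E.X_add_add_X_sub hP0 hQ0 hne)

/-- multiples of an odd-order integral torsion point are good. -/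
lemma XYModel.good_nsmul {p : ℕ} (hodd : Odd p)
    (hG1 : ∀ T : G, T ≠ 0 → p • T = 0 → v (E.X T) ≤ 1) {T : G} (hT : p • T = 0) (k : ℕ) :
    E.Good v (k • T) := by
  by_cases h0 : k • T = 0
  · exact Or.inl h0
  have hp : p • (k • T) = 0 := by rw [smul_comm, hT, smul_zero]
  refine Or.inr ⟨hG1 _ h0 hp, fun hY => h0 ?_⟩
  have h2 := E.two_nsmul_eq_zero_of_Y h0 hY
  obtain ⟨m, rfl⟩ := hodd
  rw [add_smul, mul_smul, one_smul, smul_comm, h2, smul_zero, zero_add] at hp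
  exact hp

lemma XYModel.rel_nsmul (H : BadHyp v D M) {p : ℕ} (hodd : Odd p)
    (hG1 : ∀ T : G, T ≠ 0 → p • T = 0 → v (E.X T) ≤ 1) {T : G} (hT : p • T = 0) (k : ℕ) :
    Rel (v D) (E.ee v (k • T)) (E.ee v T ^ k) ∧
      Rel (v D) (E.ee v ((k + 1) • T)) (E.ee v T ^ (k + 1)) := by
  have hδ0 := H.vD_ne
  have hc0 : E.ee v T ≠ 0 := E.ee_ne_zero H T
  induction k with
  | zero =>
    refine ⟨Rel.of_eq (by rw [zero_smul, E.ee_zero, pow_zero]), Rel.of_eq (by simp)⟩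
  | succ k ih =>
    obtain ⟨ih0, ih1⟩ := ih
    refine ⟨ih1, ?_⟩
    have hlaw := E.law H (E.good_nsmul hodd hG1 hT (k + 1)) (E.good_nsmul hodd hG1 hT 1)
    rw [one_smul] at hlaw
    have e1 : (k + 1) • T + T = (k + 1 + 1) • T := by rw [add_smul (k + 1) 1 T, one_smul]
    have e2 : (k + 1) • T - T = k • T := by rw [add_smul k 1 T, one_smul, add_sub_cancel_right]
    rw [e1, e2] at hlaw
    -- `{e' c, e' / c} ~ {c ^ (k + 2), c ^ k}`
    have hpair : (Rel (v D) (E.ee v ((k + 1) • T) * E.ee v T) (E.ee v T ^ (k + 1 + 1)) ∧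
        Rel (v D) (E.ee v ((k + 1) • T) / E.ee v T) (E.ee v T ^ k)) ∨
        (Rel (v D) (E.ee v ((k + 1) • T) * E.ee v T) (E.ee v T ^ k) ∧
        Rel (v D) (E.ee v ((k + 1) • T) / E.ee v T) (E.ee v T ^ (k + 1 + 1))) := by
      obtain ⟨j, hj | hj⟩ := ih1
      · left
        constructor
        · refine ⟨j, Or.inl ?_⟩
          rw [hj, pow_succ (E.ee v T) (k + 1)]; ac_rfl
        · refine ⟨j, Or.inl ?_⟩
          rw [hj, pow_succ (E.ee v T) k]
          field_simp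
      · right
        constructor
        · refine ⟨j, Or.inr ?_⟩
          rw [hj, pow_succ (E.ee v T) k]
          field_simp
        · refine ⟨j, Or.inr ?_⟩
          rw [hj, pow_succ (E.ee v T) (k + 1)]
          field_simp
    rcases hlaw with ⟨l1, l2⟩ | ⟨l1, l2⟩ <;> rcases hpair with ⟨q1, q2⟩ | ⟨q1, q2⟩
    · exact l1.trans hδ0 q1
    · -- `x₊ ~ c ^ k`, `x₋ ~ c ^ (k + 2)`
      exact (l1.trans hδ0 q1).trans hδ0 ((ih0.symm hδ0).trans hδ0 (l2.trans hδ0 q2))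
    · exact (l1.trans hδ0 q2).trans hδ0 ((ih0.symm hδ0).trans hδ0 (l2.trans hδ0 q1))
    · exact l1.trans hδ0 q2

/-- **(M1)** A `p`-torsion point reducing to the node has `|D| < |X|` and `|X| ^ p ∈ |D| ^ (2 ℤ)`.
The hypothesis `hG1` is (G1). -/
theorem XYModel.val_X_pow_of {p : ℕ} (h : ValHyp v D M p) (hD : v D < 1) (hD0 : D ≠ 0)
    (hG1 : ∀ T : G, T ≠ 0 → p • T = 0 → v (E.X T) ≤ 1)
    {T : G} (hT0 : T ≠ 0) (hT : p • T = 0) (hX : v (E.X T) < 1) :
    v D < v (E.X T) ∧ ∃ j : ℤ, v (E.X T) ^ p = v D ^ (2 * j) := by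
  have H : BadHyp v D M := ⟨h.two, h.vM, hD, hD0⟩
  have hδ0 := H.vD_ne
  have hrel := (E.rel_nsmul H h.odd hG1 hT p).1
  rw [hT, E.ee_zero] at hrel
  have hc0 : E.ee v T ≠ 0 := E.ee_ne_zero H T
  have hex : ∃ j : ℤ, E.ee v T ^ p = v D ^ (2 * j) := by
    obtain ⟨j, hj | hj⟩ := hrel
    · refine ⟨-j, ?_⟩
      rw [mul_neg, zpow_neg]
      exact eq_inv_of_mul_eq_one_left hj.symm
    · refine ⟨j, ?_⟩
      have h1 : E.ee v T ^ p ≠ 0 := pow_ne_zero _ hc0
      field_simp at hj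
      exact hj
  have hlt : v D < v (E.X T) := by
    by_contra hle
    rw [not_lt] at hle
    obtain ⟨j, hj⟩ := hex
    rw [E.ee_of_ne hT0, clamp_of_le hD.le hle, ← zpow_natCast] at hj
    have := zpow_right_injective₀ H.vD_pos hD.ne hj
    obtain ⟨m, hm⟩ := h.odd
    omega
  refine ⟨hlt, ?_⟩
  rw [E.ee_of_ne hT0, clamp_of_mem hlt.le hX.le] at hex
  exact hex

end Points

end Fermat.Agent.S05Aux
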