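import Fermat.Agent.S05.Weierstrass
import Fermat.Agent.S05.Kernel
import Fermat.Agent.S05.Tropical

/-!
# S05: the valuation estimates for `p`-torsion points, in explicit coordinates
-/

set_option autoImplicit false

namespace Fermat.Agent.S05Aux

theorem torsion_estimates {K : Type*} [Field K] [DecidableEq K] {Γ₀ : Type*}
    [LinearOrderedCommGroupWithZero Γ₀] (v : Valuation K Γ₀)
    (W : WeierstrassCurve.Affine K) (r D M d : K)
    (ha₁ : W.a₁ = 1) (ha₃ : W.a₃ = 0)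
    (ha₂ : 4 * W.a₂ + 1 = D + M - 3 * r)
    (ha₄ : 16 * W.a₄ = 3 * r ^ 2 - 2 * r * (D + M) + D * M)
    (ha₆ : 64 * W.a₆ = - r ^ 3 + (D + M) * r ^ 2 - D * M * r)
    (p : ℕ) (hp : p.Prime) (hp2 : p ≠ 2) (hv2 : v 2 = 1) (hvp : v (p : K) = 1)
    (hM : v M = 1) (hDM : v (D - M) = 1) (hDd : D = d ^ p) (hd0 : d ≠ 0) (hd : v d ≤ 1)
    (x y : K) (h : W.Nonsingular x y)
    (hT : p • (WeierstrassCurve.Affine.Point.some x y h : W.Point) = 0) :
    v (4 * x - r) ≤ 1 ∧ ∃ j : ℕ, v (4 * x - r) ≤ v d ^ j ∧ v (8 * y + 4 * x) = v d ^ j := by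
  have h2 : (2 : K) ≠ 0 := by
    intro h0
    rw [h0, map_zero] at hv2
    exact zero_ne_one hv2
  set E := xyModel W r D M ha₁ ha₃ ha₂ ha₄ ha₆ h2 with hE
  set T : W.Point := WeierstrassCurve.Affine.Point.some x y h with hTdef
  have hT0 : T ≠ 0 := WeierstrassCurve.Affine.Point.some_ne_zero h
  have hX : E.X T = 4 * x - r := rfl
  have hY : E.Y T = 8 * y + 4 * x := rfl
  have hvD : v D = v d ^ p := by rw [hDd, map_pow]
  have H : ValHyp v D M p :=
    ⟨hv2, hM, by rw [hvD]; exact pow_le_one₀ zero_le hd, hDM, hvp, hp.odd_of_ne_two hp2⟩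
  have G1 : v (E.X T) ≤ 1 := E.val_X_le_one H hT0 hT
  rw [← hX, ← hY]
  refine ⟨G1, ?_⟩
  have hvd0 : v d ≠ 0 := (Valuation.ne_zero_iff v).2 hd0
  rcases hd.lt_or_eq with hd1 | hd1
  · rcases G1.lt_or_eq with hX1 | hX1
    · have hD1 : v D < 1 := by rw [hvD]; exact pow_lt_one₀ zero_le hd1 hp.ne_zero
      have hD0 : D ≠ 0 := by rw [hDd]; exact pow_ne_zero _ hd0
      obtain ⟨hlt, j, hj⟩ := E.val_X_pow_of H hD1 hD0 (fun T h0 hT => E.val_X_le_one H h0 hT) hT0 hT hX1
      have h3 : v (E.X T) = v d ^ (2 * j) := by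
        have h4 : v (E.X T) ^ p = (v d ^ (2 * j)) ^ p := by
          rw [hj, hvD, ← zpow_natCast (v d ^ (2 * j)), ← zpow_mul, ← zpow_natCast (v d) p, ← zpow_mul,
            mul_comm]
        exact (pow_left_inj₀ zero_le zero_le hp.ne_zero).1 h4
      have hjpos : 0 ≤ 2 * j := by
        by_contra hneg
        push Not at hneg
        have : 1 ≤ v d ^ (2 * j) := by
          have h5 : v d ^ (2 * j) = ((v d) ^ (-(2 * j)))⁻¹ := by rw [zpow_neg, inv_inv]
          rw [h5]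
          apply (one_le_inv₀ (zpow_pos (zero_lt_iff.2 hvd0) _)).2
          obtain ⟨n, hn⟩ := Int.eq_ofNat_of_zero_le (by omega : 0 ≤ -(2 * j))
          rw [hn, zpow_natCast]
          exact pow_le_one₀ zero_le hd
        rw [← h3] at this
        exact absurd hX1 (not_lt.2 this)
      obtain ⟨n, hn⟩ := Int.eq_ofNat_of_zero_le hjpos
      rw [hn, zpow_natCast] at h3
      refine ⟨n, h3.le, ?_⟩
      have h6 := congrArg v (E.eqn T hT0)
      rw [map_pow, map_mul, map_mul, Valuation.map_add_eq_of_lt_left v hlt,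
        Valuation.map_add_eq_of_lt_right v (by rw [hM]; exact hX1), hM, mul_one, ← sq] at h6
      rw [← h3]
      exact (pow_left_inj₀ zero_le zero_le two_ne_zero).1 h6
    · exact ⟨0, by rw [pow_zero]; exact G1, by rw [pow_zero]; exact E.val_Y_eq_one H hT0 hT (Or.inl hX1)⟩
  · refine ⟨0, by rw [pow_zero]; exact G1, ?_⟩
    rw [pow_zero]
    exact E.val_Y_eq_one H hT0 hT (Or.inr (by rw [hvD, hd1, one_pow]))

end Fermat.Agent.S05Aux
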