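import Fermat.Agent.S05.Step3
import Fermat.Agent.S05.Estimates

/-!
# S05, step 4: assembly
-/

set_option autoImplicit false

namespace Fermat.Agent.S05Aux

open WeierstrassCurve WeierstrassCurve.Affine WeierstrassCurve.Affine.Point

variable {L : Type*} [Field L]

theorem valuation_intCast_le_one (A : ValuationSubring L) (n : ℤ) : A.valuation (n : L) ≤ 1 := by
  rw [A.valuation_le_one_iff]
  exact intCast_mem A n

theorem valuation_intCast_eq_one (A : ValuationSubring L) {q : ℕ} (hq : q.Prime)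
    (hA : A.LiesOverPrime q) {n : ℤ} (hn : ¬ (q : ℤ) ∣ n) : A.valuation (n : L) = 1 := by
  have hq' : A.valuation (q : L) < 1 := (ValuationSubring.mem_nonunits_iff A).1 hA
  have hcop : IsCoprime (q : ℤ) n :=
    (Nat.prime_iff_prime_int.1 hq).coprime_iff_not_dvd.2 hn
  obtain ⟨u, w, huw⟩ := hcop
  by_contra hne
  have hlt : A.valuation (n : L) < 1 := lt_of_le_of_ne (valuation_intCast_le_one A n) hne
  have h1 : (1 : L) = (u : L) * (q : L) + (w : L) * (n : L) := by
    have := congrArg (Int.cast : ℤ → L) huw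
    push_cast at this
    exact this.symm
  have h2 : A.valuation (1 : L) < 1 := by
    rw [h1]
    refine Valuation.map_add_lt _ ?_ ?_
    · rw [map_mul]
      exact lt_of_le_of_lt (mul_le_of_le_one_left' (valuation_intCast_le_one A u)) hq'
    · rw [map_mul]
      exact lt_of_le_of_lt (mul_le_of_le_one_left' (valuation_intCast_le_one A w)) hlt
  rw [map_one] at h2
  exact lt_irrefl _ h2

theorem smul_eq_self_of_shape [Algebra ℚ L] [DecidableEq L] (W₀ : Affine ℚ)
    (A : ValuationSubring L) {q : ℕ} (hq : q.Prime) (hq2 : q ≠ 2) (hA : A.LiesOverPrime q)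
    (p : ℕ) (hp : p.Prime) (hp2 : p ≠ 2) (hqp : q ≠ p)
    (r D M d : ℤ) (ha₁ : W₀.a₁ = 1) (ha₃ : W₀.a₃ = 0)
    (ha₂ : 4 * W₀.a₂ + 1 = (D : ℚ) + M - 3 * r)
    (ha₄ : 16 * W₀.a₄ = 3 * (r : ℚ) ^ 2 - 2 * r * (D + M) + D * M)
    (ha₆ : 64 * W₀.a₆ = - (r : ℚ) ^ 3 + (D + M) * r ^ 2 - D * M * r)
    (hM : ¬ (q : ℤ) ∣ M) (hDM : ¬ (q : ℤ) ∣ D - M) (hDd : D = d ^ p) (hd0 : d ≠ 0)
    (σ : L ≃ₐ[ℚ] L) (hσ : σ ∈ A.inertiaSubgroupIn ℚ)
    (T : (W₀⁄L).Point) (hT : p • T = 0) : σ • T = T := by
  have hcast : ∀ n : ℤ, algebraMap ℚ L (n : ℚ) = (n : L) := fun n => map_intCast _ n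
  have : CharZero L := algebraRat.charZero L
  have h2 : A.valuation (2 : L) = 1 := by
    have := valuation_intCast_eq_one A hq hA (n := 2) (by
      intro h
      have h' : q ∣ 2 := by exact_mod_cast h
      exact hq2 ((Nat.prime_dvd_prime_iff_eq hq Nat.prime_two).1 h'))
    simpa using this
  have hvp : A.valuation (p : L) = 1 := by
    have := valuation_intCast_eq_one A hq hA (n := p) (by
      intro h
      have h' : q ∣ p := by exact_mod_cast h
      exact hqp ((Nat.prime_dvd_prime_iff_eq hq hp).1 h'))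
    simpa using this
  have key : ∀ x y h, p • (Point.some x y h : (W₀⁄L).Point) = 0 →
      A.valuation (4 * x - (r : L)) ≤ 1 ∧ ∃ j : ℕ, A.valuation (4 * x - (r : L)) ≤
        A.valuation (d : L) ^ j ∧ A.valuation (8 * y + 4 * x) = A.valuation (d : L) ^ j := by
    intro x y h hxy
    refine torsion_estimates A.valuation (W₀⁄L) (r : L) (D : L) (M : L) (d : L) ?_ ?_ ?_ ?_ ?_
      p hp hp2 h2 hvp (valuation_intCast_eq_one A hq hA hM) ?_ ?_ ?_
      (valuation_intCast_le_one A d) x y h hxy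
    · change algebraMap ℚ L W₀.a₁ = 1; rw [ha₁, map_one]
    · change algebraMap ℚ L W₀.a₃ = 0; rw [ha₃, _root_.map_zero]
    · change 4 * algebraMap ℚ L W₀.a₂ + 1 = _
      have := congrArg (algebraMap ℚ L) ha₂
      simp only [map_add, map_mul, map_one, map_sub, map_ofNat, hcast] at this
      exact this
    · change 16 * algebraMap ℚ L W₀.a₄ = _
      have := congrArg (algebraMap ℚ L) ha₄
      simp only [map_add, map_mul, map_pow, map_sub, map_ofNat, hcast] at this
      exact this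
    · change 64 * algebraMap ℚ L W₀.a₆ = _
      have := congrArg (algebraMap ℚ L) ha₆
      simp only [map_add, map_mul, map_pow, map_sub, map_neg, map_ofNat, hcast] at this
      exact this
    · have := valuation_intCast_eq_one A hq hA hDM
      simpa using this
    · rw [hDd]; push_cast; rfl
    · exact Int.cast_ne_zero.2 hd0
  refine smul_eq_self_of_inertia W₀ A σ hσ (r : ℚ) (D : ℚ) (M : ℚ) ha₁ ha₃ ha₂ h2 ?_ ?_ p ?_ ?_ T hT
  · rw [hcast]; exact valuation_intCast_le_one A D
  · rw [hcast]; exact valuation_intCast_le_one A M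
  · intro x y h hxy
    rw [hcast]
    exact (key x y h hxy).1
  · intro x y h hxy
    obtain ⟨-, j, h1, h2⟩ := key x y h hxy
    refine ⟨(d : ℚ) ^ j, pow_ne_zero _ (by exact_mod_cast hd0), ?_, ?_⟩
    · rw [hcast, map_pow, hcast, map_pow]; exact h1
    · rw [map_pow, hcast, map_pow]; exact h2

end Fermat.Agent.S05Aux
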