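import Mathlib

/-!
# S05, step 3b: two "close" points whose difference has integral `X` are equal
-/

set_option autoImplicit false

namespace Fermat.Agent.S05Aux

open WeierstrassCurve WeierstrassCurve.Affine

variable {K : Type*} [Field K] [DecidableEq K]

/-- (F5) -/
theorem sub_X_formula {W : WeierstrassCurve.Affine K} {r D M : K} (ha₁ : W.a₁ = 1) (ha₃ : W.a₃ = 0)
    (ha₂ : 4 * W.a₂ + 1 = D + M - 3 * r)
    {x₁ y₁ x₂ y₂ : K} (h₁ : W.Nonsingular x₁ y₁) (h₂ : W.Nonsingular x₂ y₂) (hx : x₁ ≠ x₂) :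
    ∃ x₃ y₃, ∃ h₃ : W.Nonsingular x₃ y₃, Point.some x₁ y₁ h₁ - Point.some x₂ y₂ h₂ = Point.some x₃ y₃ h₃ ∧
      (4 * x₃ - r) * ((4 * x₁ - r) - (4 * x₂ - r)) ^ 2 =
        ((8 * y₁ + 4 * x₁) + (8 * y₂ + 4 * x₂)) ^ 2
          - (D + M + (4 * x₁ - r) + (4 * x₂ - r)) * ((4 * x₁ - r) - (4 * x₂ - r)) ^ 2 := by
  rw [sub_eq_add_neg, Point.neg_some, Point.add_of_X_ne hx]
  refine ⟨_, _, _, rfl, ?_⟩
  have hx' : x₁ - x₂ ≠ 0 := sub_ne_zero.2 hx
  rw [slope_of_X_ne hx]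
  simp only [addX, negY, ha₁, ha₃]
  field_simp
  linear_combination (-16 * (x₁ - x₂) ^ 4) * ha₂

/-- Two points `T = (x,y)`, `T' = (x',y')` which are close (relative to `t`) and whose difference
has integral `X`-coordinate are equal. -/
theorem eq_of_close {Γ₀ : Type*} [LinearOrderedCommGroupWithZero Γ₀] (v : Valuation K Γ₀)
    {W : WeierstrassCurve.Affine K} {r D M : K} (ha₁ : W.a₁ = 1) (ha₃ : W.a₃ = 0)
    (ha₂ : 4 * W.a₂ + 1 = D + M - 3 * r) (hD : v D ≤ 1) (hM : v M ≤ 1)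
    {x y x' y' : K} (h : W.Nonsingular x y) (h' : W.Nonsingular x' y')
    (hX : v (4 * x - r) ≤ 1) (hX' : v (4 * x' - r) ≤ 1)
    {t : K} (ht : t ≠ 0) (h1 : v ((4 * x' - r) - (4 * x - r)) < v t)
    (h2 : v ((8 * y' + 4 * x') + (8 * y + 4 * x)) = v t)
    (hno : ∀ x₃ y₃ h₃, Point.some x' y' h' - Point.some x y h = Point.some x₃ y₃ h₃ →
      v (4 * x₃ - r) ≤ 1) :
    x' = x ∧ y' = y := by
  have hvt : v t ≠ 0 := (Valuation.ne_zero_iff v).2 ht
  by_cases hx : x' = x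
  · refine ⟨hx, ?_⟩
    subst hx
    rcases Y_eq_of_X_eq h'.1 h.1 rfl with hy | hy
    · exact hy
    · exfalso
      rw [hy] at h2
      simp only [negY, ha₁, ha₃] at h2
      have : 8 * (-y - 1 * x' - 0) + 4 * x' + (8 * y + 4 * x') = 0 := by ring
      rw [this, map_zero] at h2
      exact hvt h2.symm
  · exfalso
    obtain ⟨x₃, y₃, h₃, he, hf⟩ := sub_X_formula ha₁ ha₃ ha₂ h' h hx
    have h3 := hno x₃ y₃ h₃ he
    set a := (4 * x' - r) - (4 * x - r) with ha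
    set s := (8 * y' + 4 * x') + (8 * y + 4 * x) with hs
    set c := D + M + (4 * x' - r) + (4 * x - r) with hc
    have hcv : v c ≤ 1 := v.map_add_le (v.map_add_le (v.map_add_le hD hM) hX') hX
    have ha2 : v (a ^ 2) < v (s ^ 2) := by
      rw [map_pow, map_pow, h2]
      exact pow_lt_pow_left₀ h1 zero_le two_ne_zero
    have h4 : v (c * a ^ 2) < v (s ^ 2) := by
      rw [map_mul]
      exact lt_of_le_of_lt (mul_le_of_le_one_left' hcv) ha2
    have h5 : v (s ^ 2 - c * a ^ 2) = v (s ^ 2) := v.map_sub_eq_of_lt_left h4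
    rw [← hf, map_mul] at h5
    have h6 : v (4 * x₃ - r) * v (a ^ 2) ≤ v (a ^ 2) := mul_le_of_le_one_left' h3
    rw [h5] at h6
    exact absurd ha2 (not_lt.2 h6)

end Fermat.Agent.S05Aux
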