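import Mathlib
import Fermat.Prelude.Def_FLTPrelim_Ramification

/-!
# S05, step 3a: what membership in the inertia subgroup gives
-/

set_option autoImplicit false

namespace Fermat.Agent.S05Aux

open ValuationSubring
open scoped Pointwise

variable {K L : Type*} [Field K] [Field L] [Algebra K L]

theorem mem_of_mem_decomposition (A : ValuationSubring L) (σ : L ≃ₐ[K] L)
    (hσ : σ ∈ A.decompositionSubgroup K) {x : L} (hx : x ∈ A) : σ x ∈ A := by
  have h : σ • A = A := hσ
  have := ValuationSubring.smul_mem_pointwise_smul σ x A hx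
  rw [h] at this
  exact this

theorem mem_iff_of_mem_decomposition (A : ValuationSubring L) (σ : L ≃ₐ[K] L)
    (hσ : σ ∈ A.decompositionSubgroup K) (x : L) : σ x ∈ A ↔ x ∈ A := by
  refine ⟨fun h => ?_, mem_of_mem_decomposition A σ hσ⟩
  have := mem_of_mem_decomposition A σ⁻¹ (inv_mem hσ) h
  simpa using this

theorem valuation_map_le_one_iff (A : ValuationSubring L) (σ : L ≃ₐ[K] L)
    (hσ : σ ∈ A.decompositionSubgroup K) (x : L) :
    A.valuation (σ x) ≤ 1 ↔ A.valuation x ≤ 1 := by
  rw [A.valuation_le_one_iff, A.valuation_le_one_iff]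
  exact mem_iff_of_mem_decomposition A σ hσ x

theorem valuation_map_eq_one (A : ValuationSubring L) (σ : L ≃ₐ[K] L)
    (hσ : σ ∈ A.decompositionSubgroup K) {x : L} (hx : A.valuation x = 1) :
    A.valuation (σ x) = 1 := by
  have hx0 : x ≠ 0 := by
    rintro rfl
    simp at hx
  apply le_antisymm
  · exact (valuation_map_le_one_iff A σ hσ x).2 hx.le
  · have h1 : A.valuation (σ x⁻¹) ≤ 1 := by
      refine (valuation_map_le_one_iff A σ hσ x⁻¹).2 ?_
      rw [map_inv₀, hx, inv_one]
    rw [map_inv₀, map_inv₀] at h1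
    have hσx : A.valuation (σ x) ≠ 0 := by
      rw [Valuation.ne_zero_iff]
      simpa using hx0
    exact (inv_le_one₀ (zero_lt_iff.2 hσx)).1 h1

theorem mem_decomposition_of_mem_inertia (A : ValuationSubring L) (σ : L ≃ₐ[K] L)
    (hσ : σ ∈ A.inertiaSubgroupIn K) : σ ∈ A.decompositionSubgroup K := by
  obtain ⟨τ, _, rfl⟩ := hσ
  exact τ.2

theorem valuation_sub_lt_one_of_mem_inertia (A : ValuationSubring L) (σ : L ≃ₐ[K] L)
    (hσ : σ ∈ A.inertiaSubgroupIn K) {x : L} (hx : A.valuation x ≤ 1) :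
    A.valuation (σ x - x) < 1 := by
  obtain ⟨τ, hτ, rfl⟩ := hσ
  have hxA : x ∈ A := (A.valuation_le_one_iff x).1 hx
  have h1 : MulSemiringAction.toRingAut (A.decompositionSubgroup K) (IsLocalRing.ResidueField A) τ
      = 1 := hτ
  have h2 := congrArg (fun f => f (IsLocalRing.residue A ⟨x, hxA⟩)) h1
  simp only [MulSemiringAction.toRingAut_apply, RingAut.one_apply,
    MulSemiringAction.toRingEquiv_apply_apply] at h2
  rw [← IsLocalRing.ResidueField.residue_smul, ← sub_eq_zero, ← map_sub,
    IsLocalRing.residue_eq_zero_iff, A.valuation_lt_one_iff] at h2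
  exact h2

end Fermat.Agent.S05Aux
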