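import Fermat.Agent.S05.Inertia
import Fermat.Agent.S05.Close

/-!
# S05, step 3: inertia acts trivially on torsion points, given the valuation estimates
-/

set_option autoImplicit false

namespace Fermat.Agent.S05Aux

open WeierstrassCurve WeierstrassCurve.Affine WeierstrassCurve.Affine.Point

variable {L : Type*} [Field L] [Algebra ℚ L] [DecidableEq L]

theorem smul_eq_self_of_inertia (W₀ : Affine ℚ) (A : ValuationSubring L)
    (σ : L ≃ₐ[ℚ] L) (hσ : σ ∈ A.inertiaSubgroupIn ℚ)
    (r D M : ℚ) (ha₁ : W₀.a₁ = 1) (ha₃ : W₀.a₃ = 0) (ha₂ : 4 * W₀.a₂ + 1 = D + M - 3 * r)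
    (h2 : A.valuation (2 : L) = 1)
    (hD : A.valuation (algebraMap ℚ L D) ≤ 1) (hM : A.valuation (algebraMap ℚ L M) ≤ 1)
    (n : ℕ)
    (G1 : ∀ x y h, n • (Point.some x y h : (W₀⁄L).Point) = 0 →
      A.valuation (4 * x - algebraMap ℚ L r) ≤ 1)
    (H : ∀ x y h, n • (Point.some x y h : (W₀⁄L).Point) = 0 →
      ∃ t : ℚ, t ≠ 0 ∧ A.valuation (4 * x - algebraMap ℚ L r) ≤ A.valuation (algebraMap ℚ L t) ∧
        A.valuation (8 * y + 4 * x) = A.valuation (algebraMap ℚ L t))
    (T : (W₀⁄L).Point) (hT : n • T = 0) : σ • T = T := by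
  have hdec := mem_decomposition_of_mem_inertia A σ hσ
  rcases T with _ | ⟨x, y, h⟩
  · rfl
  have hσT : n • (σ • (Point.some x y h : (W₀⁄L).Point)) = 0 := by
    rw [algEquiv_smul_def, ← map_nsmul, hT, _root_.map_zero]
  have hσT' : σ • (Point.some x y h : (W₀⁄L).Point) =
      Point.some (σ x) (σ y) ((W₀.baseChange_nonsingular σ.toAlgHom.injective ..).mpr h) := rfl
  obtain ⟨t, ht, hXt, hYt⟩ := H x y h hT
  set t' : L := algebraMap ℚ L t with ht'
  set r' : L := algebraMap ℚ L r with hr'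
  have ht0 : t' ≠ 0 := by
    rw [ht', Ne, map_eq_zero]; exact ht
  have hvt : A.valuation t' ≠ 0 := (Valuation.ne_zero_iff _).2 ht0
  have hσt : σ t' = t' := σ.commutes t
  have hσr : σ r' = r' := σ.commutes r
  have key := eq_of_close (W := W₀⁄L) A.valuation (r := r') (D := algebraMap ℚ L D)
    (M := algebraMap ℚ L M) (x := x) (y := y) (x' := σ x) (y' := σ y) (t := t')
    (by change algebraMap ℚ L W₀.a₁ = 1; rw [ha₁, map_one])
    (by change algebraMap ℚ L W₀.a₃ = 0; rw [ha₃, _root_.map_zero])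
    (by
      change 4 * algebraMap ℚ L W₀.a₂ + 1 = _
      have := congrArg (algebraMap ℚ L) ha₂
      rw [map_add, map_mul, map_one, map_sub, map_add, map_mul, map_ofNat, map_ofNat] at this
      exact this)
    hD hM h ((W₀.baseChange_nonsingular σ.toAlgHom.injective ..).mpr h)
    (G1 x y h hT) (G1 _ _ _ (hσT' ▸ hσT)) ht0 ?_ ?_ ?_
  · rw [hσT']
    obtain ⟨h1, h2⟩ := key
    simp only [Point.some.injEq]
    exact ⟨h1, h2⟩
  · -- `v (X' - X) < v t`
    set u := (4 * x - r') / t' with hu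
    have hu1 : A.valuation u ≤ 1 := by
      rw [hu, map_div₀]
      exact div_le_one_of_le₀ hXt zero_le
    have h3 := valuation_sub_lt_one_of_mem_inertia A σ hσ hu1
    have h4 : (4 * σ x - r') - (4 * x - r') = t' * (σ u - u) := by
      rw [hu, map_div₀, map_sub, map_mul, hσt, hσr, map_ofNat]
      field_simp
    rw [h4, map_mul]
    exact mul_lt_of_lt_one_right (zero_lt_iff.2 hvt) h3
  · -- `v (Y' + Y) = v t`
    set w := (8 * y + 4 * x) / t' with hw
    have hw1 : A.valuation w = 1 := by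
      rw [hw, map_div₀, hYt, div_self hvt]
    have h3 := valuation_sub_lt_one_of_mem_inertia A σ hσ hw1.le
    have h4 : (8 * σ y + 4 * σ x) + (8 * y + 4 * x) = t' * (2 * w + (σ w - w)) := by
      rw [hw, map_div₀, map_add, map_mul, map_mul, hσt, map_ofNat, map_ofNat]
      field_simp
      ring
    have h5 : A.valuation (2 * w) = 1 := by rw [map_mul, h2, hw1, one_mul]
    rw [h4, map_mul, Valuation.map_add_eq_of_lt_left _ (by rw [h5]; exact h3), h5, mul_one]
  · intro x₃ y₃ h₃ he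
    refine G1 x₃ y₃ h₃ ?_
    rw [← he, ← hσT', smul_sub, hσT, hT, sub_zero]

end Fermat.Agent.S05Aux
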