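import Mathlib
import Fermat.Agent.S05.Model

/-!
# S05: the `(X, Y)`-model attached to a Weierstrass curve `y² + xy = x³ + a₂x² + a₄x + a₆`

With `X = 4x - r`, `Y = 8y + 4x` the curve becomes `Y² = X (X + D) (X + M)`.
-/

set_option autoImplicit false
set_option linter.unusedSectionVars false

namespace Fermat.Agent.S05Aux

open WeierstrassCurve WeierstrassCurve.Affine

variable {K : Type*} [Field K] [DecidableEq K]

/-- The `X`-coordinate `4x - r` (junk value `0` at the origin). -/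
def ptX (W : Affine K) (r : K) : W.Point → K
  | .zero => 0
  | .some x _ _ => 4 * x - r

/-- The `Y`-coordinate `8y + 4x` (junk value `0` at the origin). -/
def ptY (W : Affine K) : W.Point → K
  | .zero => 0
  | .some x y _ => 8 * y + 4 * x

@[simp] lemma ptX_some (W : Affine K) (r x y : K) (h : W.Nonsingular x y) :
    ptX W r (Point.some x y h) = 4 * x - r := rfl

@[simp] lemma ptY_some (W : Affine K) (x y : K) (h : W.Nonsingular x y) :
    ptY W (Point.some x y h) = 8 * y + 4 * x := rfl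

@[simp] lemma ptX_zero (W : Affine K) (r : K) : ptX W r 0 = 0 := rfl

@[simp] lemma ptY_zero (W : Affine K) : ptY W 0 = 0 := rfl

section
variable (W : Affine K) (r D M : K)
  (ha₁ : W.a₁ = 1) (ha₃ : W.a₃ = 0)
  (ha₂ : 4 * W.a₂ + 1 = D + M - 3 * r)
  (ha₄ : 16 * W.a₄ = 3 * r ^ 2 - 2 * r * (D + M) + D * M)
  (ha₆ : 64 * W.a₆ = - r ^ 3 + (D + M) * r ^ 2 - D * M * r)
  (h2 : (2 : K) ≠ 0)

include ha₁ ha₃ ha₂ ha₄ ha₆ in
lemma ptEqn (x y : K) (h : W.Equation x y) :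
    (8 * y + 4 * x) ^ 2 = (4 * x - r) * (4 * x - r + D) * (4 * x - r + M) := by
  rw [Affine.equation_iff, ha₁, ha₃] at h
  linear_combination 64 * h + 16 * x ^ 2 * ha₂ + 4 * x * ha₄ + ha₆

include ha₁ ha₃ ha₂ in
lemma ptX_sub_aux (x₁ y₁ x₂ y₂ : K) (h₁ : W.Nonsingular x₁ y₁) (h₂ : W.Nonsingular x₂ y₂)
    (hx : x₁ ≠ x₂) :
    ptX W r (Point.some x₁ y₁ h₁ - Point.some x₂ y₂ h₂) * ((4 * x₁ - r) - (4 * x₂ - r)) ^ 2 =
      ((8 * y₁ + 4 * x₁) + (8 * y₂ + 4 * x₂)) ^ 2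
        - (D + M + (4 * x₁ - r) + (4 * x₂ - r)) * ((4 * x₁ - r) - (4 * x₂ - r)) ^ 2 := by
  rw [sub_eq_add_neg, Point.neg_some, Point.add_of_X_ne hx, ptX_some, Affine.slope_of_X_ne hx]
  have hx' : x₁ - x₂ ≠ 0 := sub_ne_zero.2 hx
  obtain ⟨l, hl⟩ : ∃ l, l = (y₁ - W.negY x₂ y₂) / (x₁ - x₂) := ⟨_, rfl⟩
  rw [← hl]
  have hl' : l * (x₁ - x₂) = y₁ + y₂ + x₂ := by
    rw [hl, div_mul_cancel₀ _ hx']
    simp only [Affine.negY, ha₁, ha₃]; ring
  simp only [Affine.addX, ha₁]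
  linear_combination (32 * ((2 * l + 1) * (x₁ - x₂) + 2 * (y₁ + y₂ + x₂) + (x₁ - x₂))) * hl'
    - (16 * (x₁ - x₂) ^ 2) * ha₂

include ha₁ ha₃ ha₂ ha₄ ha₆ in
lemma ptX_two_aux (x y : K) (h : W.Nonsingular x y) (hY : 8 * y + 4 * x ≠ 0) :
    ptX W r (2 • Point.some x y h) * (4 * (8 * y + 4 * x) ^ 2) =
      ((4 * x - r) ^ 2 - D * M) ^ 2 := by
  have hy : y ≠ W.negY x y := by
    intro hy
    apply hY
    simp only [Affine.negY, ha₁, ha₃] at hy
    linear_combination 4 * hy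
  have hy' : y - W.negY x y ≠ 0 := sub_ne_zero.2 hy
  have hE := ptEqn W r D M ha₁ ha₃ ha₂ ha₄ ha₆ x y h.1
  rw [two_nsmul, Point.add_self_of_Y_ne hy, ptX_some, Affine.slope_of_Y_ne rfl hy]
  obtain ⟨l, hl⟩ : ∃ l, l = (3 * x ^ 2 + 2 * W.a₂ * x + W.a₄ - W.a₁ * y) / (y - W.negY x y) :=
    ⟨_, rfl⟩
  rw [← hl]
  have hl' : l * (2 * y + x) = 3 * x ^ 2 + 2 * W.a₂ * x + W.a₄ - y := by
    have : y - W.negY x y = 2 * y + x := by simp only [Affine.negY, ha₁, ha₃]; ring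
    rw [hl, ← this, div_mul_cancel₀ _ hy', ha₁]; ring
  simp only [Affine.addX, ha₁]
  linear_combination
    (128 * ((2 * l + 1) * (2 * y + x) + (6 * x ^ 2 + (4 * W.a₂ + 1) * x + 2 * W.a₄))) * hl'
    + (8 * (6 * x ^ 2 + (4 * W.a₂ + 1) * x + 2 * W.a₄)
        + (3 * (4 * x - r) ^ 2 + 2 * (D + M) * (4 * x - r) + D * M)) * (8 * x * ha₂ + ha₄)
    - 4 * (8 * y + 4 * x) ^ 2 * ha₂ - 4 * (D + M + 2 * (4 * x - r)) * hE

/-- The `(X, Y)`-model attached to `W`. -/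
noncomputable def xyModel : XYModel K W.Point D M where
  X := ptX W r
  Y := ptY W
  eqn := by
    rintro (_ | ⟨x, y, h⟩) hP
    · exact absurd rfl hP
    · exact ptEqn W r D M ha₁ ha₃ ha₂ ha₄ ha₆ x y h.1
  X_neg := by
    rintro (_ | ⟨x, y, h⟩)
    · rfl
    · rfl
  Y_neg := by
    rintro (_ | ⟨x, y, h⟩)
    · simp [← Point.zero_def]
    · rw [Point.neg_some, ptY_some, ptY_some]
      simp only [Affine.negY, ha₁, ha₃]; ring
  ext := by
    rintro (_ | ⟨x₁, y₁, h₁⟩) (_ | ⟨x₂, y₂, h₂⟩) hP hQ hX hY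
    · exact absurd rfl hP
    · exact absurd rfl hP
    · exact absurd rfl hQ
    · simp only [ptX_some, ptY_some] at hX hY
      have h4 : (4 : K) ≠ 0 := by
        have : (4 : K) = 2 * 2 := by norm_num
        rw [this]; exact mul_ne_zero h2 h2
      have h8 : (8 : K) ≠ 0 := by
        have : (8 : K) = 2 * 4 := by norm_num
        rw [this]; exact mul_ne_zero h2 h4
      have hx : x₁ = x₂ := mul_left_cancel₀ h4 (by linear_combination hX)
      subst hx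
      have hy : y₁ = y₂ := mul_left_cancel₀ h8 (by linear_combination hY)
      subst hy
      rfl
  X_sub := by
    rintro (_ | ⟨x₁, y₁, h₁⟩) (_ | ⟨x₂, y₂, h₂⟩) hP hQ hX
    · exact absurd rfl hP
    · exact absurd rfl hP
    · exact absurd rfl hQ
    · have hx : x₁ ≠ x₂ := by
        rintro rfl
        exact hX rfl
      exact ptX_sub_aux W r D M ha₁ ha₃ ha₂ x₁ y₁ x₂ y₂ h₁ h₂ hx
  X_two := by
    rintro (_ | ⟨x, y, h⟩) hP hY
    · exact absurd rfl hP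
    · exact ptX_two_aux W r D M ha₁ ha₃ ha₂ ha₄ ha₆ x y h hY

@[simp] lemma xyModel_X (P : W.Point) :
    (xyModel W r D M ha₁ ha₃ ha₂ ha₄ ha₆ h2).X P = ptX W r P := rfl

@[simp] lemma xyModel_Y (P : W.Point) :
    (xyModel W r D M ha₁ ha₃ ha₂ ha₄ ha₆ h2).Y P = ptY W P := rfl

end

end Fermat.Agent.S05Aux
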